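import Fermat.Agent.S29.HolAux
import Fermat.Agent.S24.Cusp

/-!
# S30/SURJ : roots of functions meromorphic at infinity
-/

set_option autoImplicit false

open UpperHalfPlane ModularForm WithZero Function
open Fermat.Agent.S24 Fermat.Agent.S29 Fermat.Agent.S24.Cusp
open scoped MatrixGroups Manifold

noncomputable section

namespace Fermat.Agent.S30.Surj

theorem HolB_mono {N M : ℕ} (h : N ∣ M) : HolB N ≤ HolB M := by
  intro f hf
  obtain ⟨k, rfl⟩ := h
  refine ⟨hf.1, ?_, hf.2.2⟩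
  have := hf.2.1.nat_mul k
  have e : (((N * k : ℕ) : ℝ) : ℂ) = (k : ℂ) * ((N : ℝ) : ℂ) := by
    push_cast
    ring
  rw [e]
  exact this

theorem range_emb_mono {N M : ℕ} (h : N ∣ M) : (emb N).range ≤ (emb M).range := by
  rintro _ ⟨z, rfl⟩
  obtain ⟨a, b, hb, rfl⟩ := Cusp.exists_div N z
  refine ⟨algebraMap (HolB M) (MerB M) ⟨a.1, HolB_mono h a.2⟩ /
    algebraMap (HolB M) (MerB M) ⟨b.1, HolB_mono h b.2⟩, ?_⟩
  rw [map_div₀, map_div₀, emb_algebraMap, emb_algebraMap, emb_algebraMap, emb_algebraMap]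
  rfl

theorem holAct_toHol_self (M : ℕ) (B : HolB M) :
    holAct (ModularGroup.T ^ (M : ℤ)) (toHol M B) = toHol M B := by
  ext τ
  rw [holAct_apply]
  have h := (periodic_iff M (fn B)).mp B.2.2.1 ((ModularGroup.T ^ (M : ℤ))⁻¹ • τ)
  rw [smul_inv_smul] at h
  exact h.symm

/-- an `M`-periodic `m`-th root of an element of `MerB M` is in `MerB M` -/
theorem mem_range_of_pow {m : ℕ} (hm : m ≠ 0) (M : ℕ) (x : Mer) (hx : x ^ m ∈ (emb M).range)
    (hper : merAct (ModularGroup.T ^ (M : ℤ)) x = x) : x ∈ (emb M).range := by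
  obtain ⟨z, hz⟩ := hx
  obtain ⟨A, B, hB, rfl⟩ := Cusp.exists_div M z
  rw [map_div₀, emb_algebraMap, emb_algebraMap] at hz
  have hB' : algebraMap Hol Mer (toHol M B) ≠ 0 := by
    intro h
    have h2 : toHol M B = 0 := IsFractionRing.injective Hol Mer (by rw [h, map_zero])
    exact hB (toHol_injective M (by rw [h2, map_zero]))
  have hy : (x * algebraMap Hol Mer (toHol M B)) ^ m =
      algebraMap Hol Mer (toHol M (A * B ^ (m - 1))) := by
    rw [mul_pow, ← hz, map_mul, map_mul, map_pow, map_pow, div_mul_eq_mul_div,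
      div_eq_iff hB', mul_assoc, ← pow_succ, Nat.sub_add_cancel (Nat.pos_of_ne_zero hm)]
  obtain ⟨y₀, hy₀⟩ := exists_hol_of_pow hm _ _ hy
  have hpow : y₀ ^ m = toHol M (A * B ^ (m - 1)) := by
    apply IsFractionRing.injective Hol Mer
    rw [map_pow, hy₀, hy]
  have hinv : holAct (ModularGroup.T ^ (M : ℤ)) y₀ = y₀ := by
    apply IsFractionRing.injective Hol Mer
    rw [← merAct_algebraMap, hy₀, map_mul, hper, merAct_algebraMap, holAct_toHol_self]
  have hmem : (y₀ : ℍ → ℂ) ∈ HolB M := by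
    refine ⟨y₀.2, ?_, ?_⟩
    · rw [periodic_iff]
      intro τ
      have h := congrFun (congrArg Subtype.val hinv) (ModularGroup.T ^ (M : ℤ) • τ)
      rw [holAct_apply, inv_smul_smul] at h
      exact h.symm
    · have hbd : IsBoundedAtImInfty (fn (A * B ^ (m - 1))) := (A * B ^ (m - 1)).2.2.2
      rw [isBoundedAtImInfty_iff] at hbd ⊢
      obtain ⟨C, D, hCD⟩ := hbd
      refine ⟨1 + C, D, fun τ hτ => ?_⟩
      have h1 : (y₀ : ℍ → ℂ) τ ^ m = fn (A * B ^ (m - 1)) τ :=
        congrFun (congrArg Subtype.val hpow) τ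
      have h2 := norm_le_one_add_of_pow_eq hm h1
      have h3 := hCD τ hτ
      linarith
  refine ⟨algebraMap (HolB M) (MerB M) ⟨y₀.1, hmem⟩ / algebraMap (HolB M) (MerB M) B, ?_⟩
  rw [map_div₀, emb_algebraMap, emb_algebraMap, div_eq_iff hB', ← hy₀]
  rfl

end Fermat.Agent.S30.Surj
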