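import Fermat.Agent.S16.LLift

/-!
# S30/SURJ : `S16.Lower.exists_lift` with the hypotheses in conjugate form

Same proof as `S16.Lower.exists_lift` (which only uses its hypotheses through the three conjugate forms).
-/

set_option autoImplicit false

open scoped MatrixGroups
open CongruenceSubgroup ModularGroup ModularCurve ModularCurve.Period
open Fermat.Agent.S21.DimBound Fermat.Agent.S16.Lower Fermat.Agent.S16.Lower.LiftAux

namespace Fermat.Agent.S30.Surj

theorem exists_lift_conj (N : ℕ) [NeZero N] (n : ℕ) (κ : Additive (Gamma0 N) →+ ZMod n)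
    (hT : ∀ (r : SL(2, ℤ)) (k : ℤ) (γ : Gamma0 N), (γ : SL(2, ℤ)) = r⁻¹ * T ^ k * r →
      κ (Additive.ofMul γ) = 0)
    (hS : ∀ (r : SL(2, ℤ)) (k : ℤ) (γ : Gamma0 N), (γ : SL(2, ℤ)) = r⁻¹ * S ^ k * r →
      κ (Additive.ofMul γ) = 0)
    (hU : ∀ (r : SL(2, ℤ)) (k : ℤ) (γ : Gamma0 N), (γ : SL(2, ℤ)) = r⁻¹ * (S * T) ^ k * r →
      κ (Additive.ofMul γ) = 0) :
    ∃ κt : Additive (Gamma0 N) →+ ℤ, IsParabolicHom (Gamma0 N) κt ∧
      ∀ γ, ((κt γ : ℤ) : ZMod n) = κ γ := by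
  classical
  have := Fermat.Agent.S21.DimBound.finite_quotient_Gamma0 N
  have hz := Fermat.Agent.S21.DimBound.SS_mem_Gamma0 N
  obtain ⟨uT, uT1, uT2⟩ := exists_quasi (Γ := Gamma0 N) T κ hT
  obtain ⟨uS, uS1, uS2⟩ := exists_quasi (Γ := Gamma0 N) S κ hS
  obtain ⟨uU, uU1, uU2⟩ := exists_quasi (Γ := Gamma0 N) (S * T) κ hU
  obtain ⟨w, hw⟩ := exists_desc (Γ := Gamma0 N) (fun g => uT g - uS g) (by
    intro g γ
    simp only [uT1, uS1]
    abel)
  obtain ⟨y, hy⟩ := exists_desc (Γ := Gamma0 N) (fun g => uT g - uU g) (by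
    intro g γ
    simp only [uT1, uU1]
    abel)
  have hsm : ∀ (a g : SL(2, ℤ)), a • (g : SL(2, ℤ) ⧸ Gamma0 N) = ((a * g : SL(2, ℤ)) : SL(2, ℤ) ⧸ Gamma0 N) :=
    fun a g => rfl
  have hwS : ∀ g : SL(2, ℤ), w (S⁻¹ • (g : SL(2, ℤ) ⧸ Gamma0 N)) - w g = uT (S⁻¹ * g) - uT g := by
    intro g
    rw [hsm, hw, hw, uS2]
    abel
  have hrel : ∀ x, w (S⁻¹ • x) - w x = y ((S * T)⁻¹ • x) - y x := by
    intro x
    induction x using Quotient.inductionOn' with
    | h g =>
      show w (S⁻¹ • (g : SL(2, ℤ) ⧸ Gamma0 N)) - w g = y ((S * T)⁻¹ • (g : SL(2, ℤ) ⧸ Gamma0 N)) - y g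
      rw [hwS, hsm, hy, hy, uU2]
      have : uT ((S * T)⁻¹ * g) = uT (S⁻¹ * g) := by
        rw [mul_inv_rev, mul_assoc, uT2]
      rw [this]
      abel
  obtain ⟨w', y', hrel', hw', hy'⟩ := exists_lift_pair n w y hrel
  -- the complex vector
  let x : SL(2, ℤ) ⧸ Gamma0 N → ℂ := fun c => ((w' (S⁻¹ • c) - w' c : ℤ) : ℂ)
  have hpS : ∀ c : SL(2, ℤ) ⧸ Gamma0 N, perm (Gamma0 N) S c = S⁻¹ • c := fun c => rfl
  have hpU : ∀ c : SL(2, ℤ) ⧸ Gamma0 N, perm (Gamma0 N) (S * T) c = (S * T)⁻¹ • c := fun c => rfl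
  have hA : x ∈ Fermat.Agent.S20.permEigen (perm (Gamma0 N) S) (-1) := by
    intro c
    show ((w' (S⁻¹ • (perm (Gamma0 N) S c)) - w' (perm (Gamma0 N) S c) : ℤ) : ℂ) =
      -1 * ((w' (S⁻¹ • c) - w' c : ℤ) : ℂ)
    rw [← hpS, perm_S_S hz, hpS]
    push_cast
    ring
  have hB : x ∈ kerThree (perm (Gamma0 N) (S * T)) := by
    intro c
    have e : ∀ c, x c = ((y' ((S * T)⁻¹ • c) - y' c : ℤ) : ℂ) := by
      intro c
      show ((w' (S⁻¹ • c) - w' c : ℤ) : ℂ) = _
      rw [hrel']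
    rw [e, e, e, ← hpU, ← hpU, ← hpU, perm_ST_cube hz]
    push_cast
    ring
  obtain ⟨u, hu, hu1⟩ := exists_UT_of_mem N x hA hB
  have hint := UT_int u hu1 (fun c => ⟨_, by rw [hu]⟩)
  choose v hv using hint
  have hv1 : v 1 = 0 := by
    have := hv 1
    rw [hu1] at this
    exact_mod_cast this.symm
  have hpar := piHom_mem_parabolicHoms hz u
  have hpi : ∀ γ : Gamma0 N, piHom (Gamma0 N) u (Additive.ofMul γ) = (v γ : ℂ) := by
    intro γ
    rw [piHom_apply, hu1, hv, sub_zero]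
  let κt : Additive (Gamma0 N) →+ ℤ :=
    { toFun := fun γ => v ((Additive.toMul γ : Gamma0 N) : SL(2, ℤ))
      map_zero' := by
        show v ((1 : Gamma0 N) : SL(2, ℤ)) = 0
        rw [Subgroup.coe_one, hv1]
      map_add' := by
        intro a b
        have := map_add (piHom (Gamma0 N) u) a b
        have ha := hpi (Additive.toMul a)
        have hb := hpi (Additive.toMul b)
        have hab := hpi (Additive.toMul (a + b))
        simp only [ofMul_toMul] at ha hb hab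
        rw [ha, hb, hab] at this
        exact_mod_cast this }
  have hκt : ∀ γ : Gamma0 N, κt (Additive.ofMul γ) = v γ := fun γ => rfl
  refine ⟨κt, ?_, ?_⟩
  · intro γ hγ
    have := hpar γ hγ
    rw [hpi] at this
    rw [hκt]
    exact_mod_cast this
  · -- comparison mod n
    have hcmp : (fun g => ((v g : ℤ) : ZMod n)) = fun g => uT g - uT 1 := by
      apply eq_of_T_of_S
      · intro g
        have : v (T⁻¹ * g) = v g := by
          have := UT.inv_T u g
          rw [hv, hv] at this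
          exact_mod_cast this
        simp only [this]
      · intro g
        simp only [uT2]
      · intro g
        have e1 : v (S⁻¹ * g) - v g = w' (S⁻¹ • (g : SL(2, ℤ) ⧸ Gamma0 N)) - w' g := by
          have := congrFun hu (g : SL(2, ℤ) ⧸ Gamma0 N)
          rw [lam_mk, hv, hv] at this
          have h3 : (((v (S⁻¹ * g) - v g : ℤ)) : ℂ) =
              ((w' (S⁻¹ • (g : SL(2, ℤ) ⧸ Gamma0 N)) - w' g : ℤ) : ℂ) := by
            rw [Int.cast_sub]; exact this
          exact_mod_cast h3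
        have e2 : ((v (S⁻¹ * g) : ℤ) : ZMod n) - ((v g : ℤ) : ZMod n) =
            w (S⁻¹ • (g : SL(2, ℤ) ⧸ Gamma0 N)) - w g := by
          rw [← Int.cast_sub, e1, Int.cast_sub, hw', hw']
        rw [e2, hwS]
        abel
      · simp [hv1]
    intro γ
    have e := congrFun hcmp ((Additive.toMul γ : Gamma0 N) : SL(2, ℤ))
    show ((v ((Additive.toMul γ : Gamma0 N) : SL(2, ℤ)) : ℤ) : ZMod n) = κ γ
    rw [e]
    have := uT1 1 (Additive.toMul γ)
    rw [one_mul] at this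
    rw [this]
    simp

end Fermat.Agent.S30.Surj
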