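import Fermat.Agent.S24.Cusp

/-!
# S30/SURJ, local part : the multiplier of a semi-invariant function is determined by its order

`char_fix` (`χ`-version of `S24.MerAux.denom_sq_zpow_eq_one`) and `char_cusp` (`χ`-version of
`S24.Cusp.dvd_of_merAct`).
-/

set_option autoImplicit false

open UpperHalfPlane ModularForm WithZero Filter Topology Fermat.Agent.S24 Fermat.Agent.S24.MerAux
open scoped MatrixGroups Manifold Real

noncomputable section

namespace Fermat.Agent.S30.Surj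

theorem algebraMap_C_Mer (c : ℂ) : algebraMap ℂ Mer c = algebraMap Hol Mer (algebraMap ℂ Hol c) :=
  IsScalarTower.algebraMap_apply ℂ Hol Mer c

/-- the multiplier relation at a fixed point -/
theorem char_fix (g : SL(2, ℤ)) (τ : ℍ) (hfix : g • τ = τ) (x : Mer) (χ : ℂ) (hx : x ≠ 0)
    (hinv : merAct g⁻¹ x = algebraMap ℂ Mer χ * x) :
    χ = (denom (g : GL (Fin 2) ℝ) τ ^ 2) ^ (log (ordAt τ x)) := by
  obtain ⟨a, b, hb, rfl⟩ := MerAux.exists_div x
  have ha : a ≠ 0 := by
    rintro rfl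
    simp at hx
  have hb' := MerAux.algebraMap_ne_zero hb
  have hgb : holAct g⁻¹ b ≠ 0 := by
    intro h
    exact hb ((holAct g⁻¹).injective (by rw [h, map_zero]))
  have hgb' := MerAux.algebraMap_ne_zero hgb
  rw [map_div₀, merAct_algebraMap, merAct_algebraMap, algebraMap_C_Mer, ← mul_div_assoc,
    div_eq_div_iff hgb' hb', ← map_mul, ← map_mul, ← map_mul] at hinv
  have hrel : holAct g⁻¹ a * b = algebraMap ℂ Hol χ * a * holAct g⁻¹ b :=
    IsFractionRing.injective Hol Mer hinv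
  have hrel' : ((holAct g⁻¹ a : ℍ → ℂ) ∘ ofComplex) * ((b : ℍ → ℂ) ∘ ofComplex)
      = (fun _ => χ) * (((a : ℍ → ℂ) ∘ ofComplex) * ((holAct g⁻¹ b : ℍ → ℂ) ∘ ofComplex)) := by
    funext z
    have := congrFun (congrArg Subtype.val hrel) (ofComplex z)
    simp only [Pi.mul_apply, Function.comp_apply]
    rw [← mul_assoc]
    exact this
  have htc := congrArg (fun F => meromorphicTrailingCoeffAt F (τ : ℂ)) hrel'
  beta_reduce at htc
  rw [(meromorphicAt_hol τ _).meromorphicTrailingCoeffAt_mul (meromorphicAt_hol τ _),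
    (MeromorphicAt.const χ _).meromorphicTrailingCoeffAt_mul
      ((meromorphicAt_hol τ _).mul (meromorphicAt_hol τ _)),
    (meromorphicAt_hol τ _).meromorphicTrailingCoeffAt_mul (meromorphicAt_hol τ _),
    trailingCoeff_holAct_inv g τ hfix, trailingCoeff_holAct_inv g τ hfix,
    meromorphicTrailingCoeffAt_const] at htc
  have hta : meromorphicTrailingCoeffAt ((a : ℍ → ℂ) ∘ ofComplex) (τ : ℂ) ≠ 0 :=
    (meromorphicAt_hol τ a).meromorphicTrailingCoeffAt_ne_zero
      (fun h => ha ((holOrd_eq_top_iff τ a).mp h))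
  have htb : meromorphicTrailingCoeffAt ((b : ℍ → ℂ) ∘ ofComplex) (τ : ℂ) ≠ 0 :=
    (meromorphicAt_hol τ b).meromorphicTrailingCoeffAt_ne_zero
      (fun h => hb ((holOrd_eq_top_iff τ b).mp h))
  have hd : (denom (g : GL (Fin 2) ℝ) τ ^ 2) ≠ 0 := pow_ne_zero _ (denom_ne_zero _ _)
  have hpow : ((denom (g : GL (Fin 2) ℝ) τ ^ 2)⁻¹) ^ (holOrd τ a).untop₀
      = χ * ((denom (g : GL (Fin 2) ℝ) τ ^ 2)⁻¹) ^ (holOrd τ b).untop₀ := by
    have h2 : (((denom (g : GL (Fin 2) ℝ) τ ^ 2)⁻¹) ^ (holOrd τ a).untop₀) *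
        (meromorphicTrailingCoeffAt ((a : ℍ → ℂ) ∘ ofComplex) (τ : ℂ) *
          meromorphicTrailingCoeffAt ((b : ℍ → ℂ) ∘ ofComplex) (τ : ℂ)) =
        (χ * ((denom (g : GL (Fin 2) ℝ) τ ^ 2)⁻¹) ^ (holOrd τ b).untop₀) *
        (meromorphicTrailingCoeffAt ((a : ℍ → ℂ) ∘ ofComplex) (τ : ℂ) *
          meromorphicTrailingCoeffAt ((b : ℍ → ℂ) ∘ ofComplex) (τ : ℂ)) := by
      linear_combination htc
    exact mul_right_cancel₀ (mul_ne_zero hta htb) h2
  rw [log_ordAt_div τ ha hb, zpow_sub₀ hd, eq_div_iff (zpow_ne_zero _ hd)]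
  rw [inv_zpow, inv_zpow] at hpow
  have h1 := zpow_ne_zero (holOrd τ a).untop₀ hd
  have h2 := zpow_ne_zero (holOrd τ b).untop₀ hd
  field_simp at hpow
  linear_combination -hpow

open Cusp in
/-- the multiplier relation at infinity -/
theorem char_cusp (M : ℕ) [NeZero M] (k : ℤ) (x : MerB M) (χ : ℂ) (hx : x ≠ 0)
    (h : merAct (ModularGroup.T ^ k) (emb M x) = algebraMap ℂ Mer χ * emb M x) :
    χ = (zetaK M k) ^ (log (wB M x)) := by
  obtain ⟨a, b, hb, rfl⟩ := Cusp.exists_div M x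
  have ha : a ≠ 0 := by
    rintro rfl
    simp at hx
  have hχ : algebraMap ℂ Mer χ = emb M (algebraMap (HolB M) (MerB M) (algebraMap ℂ (HolB M) χ)) := by
    rw [emb_const]
  rw [merAct_emb_div, hχ, ← map_mul] at h
  have h1 := emb_injective M h
  rw [← mul_div_assoc,
    div_eq_div_iff (Cusp.algebraMap_ne_zero (shiftB_ne_zero hb k)) (Cusp.algebraMap_ne_zero hb),
    ← map_mul, ← map_mul, ← map_mul] at h1
  have h2 : shiftB M k a * b = algebraMap ℂ (HolB M) χ * a * shiftB M k b :=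
    IsFractionRing.injective (HolB M) (MerB M) h1
  have hχ0 : χ ≠ 0 := by
    rintro rfl
    rw [map_zero, zero_mul, zero_mul] at h2
    exact (mul_ne_zero (shiftB_ne_zero ha k) hb) h2
  obtain ⟨c, hc⟩ := hasLead_ordB M a ha
  obtain ⟨d, hd⟩ := hasLead_ordB M b hb
  have l1 : HasLead M (fn (shiftB M k a * b)) _ _ := (hc.shift k).mul hd
  have l2 : HasLead M (fn (algebraMap ℂ (HolB M) χ * a * shiftB M k b)) _ _ :=
    ((hasLead_const M χ hχ0).mul hc).mul (hd.shift k)
  rw [h2] at l1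
  have h3 := (l1.unique l2).2
  have hz := zetaK_ne_zero M (-k)
  have h4 : zetaK M (-k) ^ ordB M a = χ * zetaK M (-k) ^ ordB M b := by
    have hc0 := hc.1
    have hd0 := hd.1
    have : c * d * zetaK M (-k) ^ ordB M a = c * d * (χ * zetaK M (-k) ^ ordB M b) := by
      linear_combination h3
    exact mul_left_cancel₀ (mul_ne_zero hc0 hd0) this
  have hw : wB M (algebraMap (HolB M) (MerB M) a / algebraMap (HolB M) (MerB M) b) =
      exp ((ordB M b : ℤ) - ordB M a) := by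
    rw [map_div₀, wB_algebraMap, wB_algebraMap, valB_apply M ha, valB_apply M hb,
      div_eq_mul_inv, ← exp_neg, ← exp_add]
    congr 1
    ring
  have hzz : zetaK M k = (zetaK M (-k))⁻¹ := by
    unfold zetaK
    rw [← Complex.exp_neg]
    congr 1
    push_cast
    ring
  rw [hw, log_exp, hzz, inv_zpow, ← zpow_neg, neg_sub, zpow_sub₀ hz, zpow_natCast, zpow_natCast,
    eq_div_iff (pow_ne_zero _ hz)]
  exact h4.symm

end Fermat.Agent.S30.Surj
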