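import Fermat.Agent.S29.Defs
import Fermat.Agent.S24.Embed

/-!
# S30/SURJ, abstract part

`F / K` a function field, `σ : F → L` an embedding in a valued field `(L, w)`.  The valuation `w ∘ σ` is
either trivial or a multiple of a place of `F`.  Hence: there is `f₀ ≠ 0` in `F` such that for every `u`
whose divisor is divisible by `m`, `log w (σ u) = m * n * log w (σ f₀)`.
-/

set_option autoImplicit false

open AlgebraicCurve IntermediateField WithZero Fermat.Agent.S24 Fermat.Agent.S29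

namespace Fermat.Agent.S30.Surj

variable {K F L : Type*} [Field K] [Field F] [Algebra K F] [CharZero K] [Field L]

theorem exists_unif (w : Valuation L ℤᵐ⁰) (σ : F →+* L) (y : F) (hy : Transcendental K y)
    (hfin : FiniteDimensional K⟮y⟯ F) (hK : ∀ a : K, w (σ (algebraMap K F a)) ≤ 1)
    (hyO : w (σ y) ≤ 1) :
    ∃ f₀ : F, f₀ ≠ 0 ∧ ∀ (m : ℕ) (u : F), PDiv K F m u →
      ∃ n : ℤ, log (w (σ u)) = m * n * log (w (σ f₀)) := by
  by_cases hO : (w.comap σ).valuationSubring = ⊤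
  · refine ⟨1, one_ne_zero, fun m u hu => ⟨0, ?_⟩⟩
    have h1 : ∀ x : F, w (σ x) ≤ 1 := fun x => by
      have : x ∈ (w.comap σ).valuationSubring := by rw [hO]; exact ValuationSubring.mem_top _
      exact (Valuation.mem_valuationSubring_iff _ _).mp this
    have h2 := h1 u
    have h3 := h1 u⁻¹
    rw [map_inv₀, map_inv₀] at h3
    have h0 : w (σ u) ≠ 0 := (Valuation.ne_zero_iff _).mpr ((map_ne_zero σ).mpr hu.1)
    have h4 : 1 ≤ w (σ u) := (inv_le_one₀ (zero_lt_iff.mpr h0)).mp h3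
    rw [le_antisymm h2 h4]
    simp
  · obtain ⟨v, hv⟩ := exists_place_of_valuationSubring y hy hfin _ hO
      (fun a => (Valuation.mem_valuationSubring_iff _ _).mpr (hK a))
      ((Valuation.mem_valuationSubring_iff _ _).mpr hyO)
    obtain ⟨ϖ, hϖ⟩ := IsDiscreteValuationRing.exists_irreducible v.toValuationSubring
    have hϖ0 : (ϖ : F) ≠ 0 := by
      simpa [ne_eq, ZeroMemClass.coe_eq_zero] using hϖ.ne_zero
    refine ⟨ϖ, hϖ0, fun m u hu => ?_⟩
    obtain ⟨n, hn⟩ := hu.2 v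
    refine ⟨n, ?_⟩
    have h := log_val_eq v (w.comap σ) hv hϖ hu.1
    rw [Valuation.comap_apply, Valuation.comap_apply, hn] at h
    exact h

/-- the character of an `m`-th root of `σ u` is trivial -/
theorem char_eq_one (w : Valuation L ℤᵐ⁰) (σ : F →+* L) (y : F) (hy : Transcendental K y)
    (hfin : FiniteDimensional K⟮y⟯ F) (hK : ∀ a : K, w (σ (algebraMap K F a)) ≤ 1)
    (hyO : w (σ y) ≤ 1) (P : L → ℂ → Prop) (J : ℂ)
    (hJ : ∀ x χ, x ≠ 0 → P x χ → χ = J ^ (log (w x)))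
    (hσ : ∀ f, P (σ f) 1) {m : ℕ} (hm : m ≠ 0) {u : F} (hu : PDiv K F m u) {x : L}
    (hx : x ^ m = σ u) {χ : ℂ} (hχ : P x χ) : χ = 1 := by
  obtain ⟨f₀, hf₀, h⟩ := exists_unif w σ y hy hfin hK hyO
  obtain ⟨n, hn⟩ := h m u hu
  have hx0 : x ≠ 0 := by
    rintro rfl
    rw [zero_pow hm] at hx
    exact hu.1 ((map_eq_zero σ).mp hx.symm)
  have h1 : log (w x) = n * log (w (σ f₀)) := by
    have h2 : (m : ℤ) * log (w x) = m * (n * log (w (σ f₀))) := by
      rw [← mul_assoc, ← hn, ← hx, map_pow, WithZero.log_pow, nsmul_eq_mul]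
    exact mul_left_cancel₀ (by exact_mod_cast hm) h2
  have h3 := hJ (σ f₀) 1 ((map_ne_zero σ).mpr hf₀) (hσ f₀)
  rw [hJ x χ hx0 hχ, h1, mul_comm, zpow_mul, ← h3, one_zpow]

end Fermat.Agent.S30.Surj
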