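import Fermat.Agent.S29.HolAux
import Fermat.Agent.ES.Root
import Fermat.Agent.S30.SurjAbs

/-!
# S30/SURJ : roots of unity, the `m`-th root of a function whose divisor is divisible by `m`
-/

set_option autoImplicit false

open UpperHalfPlane ModularForm WithZero ModularCurve AlgebraicCurve CongruenceSubgroup
open Fermat.Agent.S24 Fermat.Agent.S29
open scoped MatrixGroups Manifold

noncomputable section

namespace Fermat.Agent.S30.Surj

theorem zet_add (m : ℕ) (a b : ℤ) : zet m (a + b) = zet m a * zet m b := by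
  unfold zet
  rw [← Complex.exp_add]
  congr 1
  push_cast
  ring

theorem zet_eq_pow (m : ℕ) (i : ℕ) :
    zet m i = Complex.exp (2 * Real.pi * Complex.I / m) ^ i := by
  unfold zet
  rw [← Complex.exp_nat_mul]
  congr 1
  push_cast
  ring

theorem zet_eq_one_iff {m : ℕ} (hm : m ≠ 0) (a : ℤ) : zet m a = 1 ↔ (m : ℤ) ∣ a := by
  unfold zet
  rw [Complex.exp_eq_one_iff]
  have hm' : (m : ℂ) ≠ 0 := by exact_mod_cast hm
  have hpi : (2 * Real.pi * Complex.I : ℂ) ≠ 0 := Complex.two_pi_I_ne_zero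
  constructor
  · rintro ⟨n, hn⟩
    refine ⟨n, ?_⟩
    have h1 : (a : ℂ) = m * n := by
      field_simp at hn
      exact hn
    exact_mod_cast h1
  · rintro ⟨n, rfl⟩
    refine ⟨n, ?_⟩
    push_cast
    field_simp

theorem zet_eq_iff {m : ℕ} (hm : m ≠ 0) (a b : ℤ) :
    zet m a = zet m b ↔ ((a : ℤ) : ZMod m) = ((b : ℤ) : ZMod m) := by
  have h1 : zet m a = zet m b * zet m (a - b) := by rw [← zet_add]; congr 1; ring
  have h0 : zet m b ≠ 0 := Complex.exp_ne_zero _
  rw [ZMod.intCast_eq_intCast_iff_dvd_sub, ← zet_eq_one_iff hm, h1]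
  constructor
  · intro h
    have h2 : zet m (a - b) = 1 := by
      have : zet m b * zet m (a - b) = zet m b * 1 := by rw [h, mul_one]
      exact mul_left_cancel₀ h0 this
    have h3 : zet m (b - a) * zet m (a - b) = 1 := by
      rw [← zet_add]; simp [zet]
    rw [h2, mul_one] at h3
    exact h3
  · intro h
    have h3 : zet m (b - a) * zet m (a - b) = 1 := by
      rw [← zet_add]; simp [zet]
    rw [h, one_mul] at h3
    rw [h3, mul_one]

theorem zet_pow_self {m : ℕ} (hm : m ≠ 0) (a : ℤ) : zet m a ^ m = 1 := by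
  unfold zet
  rw [← Complex.exp_nat_mul, Complex.exp_eq_one_iff]
  refine ⟨a, ?_⟩
  have hm' : (m : ℂ) ≠ 0 := by exact_mod_cast hm
  field_simp

/-- the `m`-th roots of unity of `Mer` are constants -/
theorem exists_zet_of_pow_eq_one {m : ℕ} (hm : m ≠ 0) (z : Mer) (hz : z ^ m = 1) :
    ∃ k : ℤ, z = algebraMap ℂ Mer (zet m k) := by
  have h1 : IsPrimitiveRoot (Complex.exp (2 * Real.pi * Complex.I / m)) m :=
    Complex.isPrimitiveRoot_exp m hm
  have h2 := h1.map_of_injective (f := algebraMap ℂ Mer) (algebraMap ℂ Mer).injective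
  have : NeZero m := ⟨hm⟩
  obtain ⟨i, _, hi⟩ := h2.eq_pow_of_pow_eq_one hz
  refine ⟨i, ?_⟩
  rw [← hi, ← map_pow]
  congr 1
  exact_mod_cast (zet_eq_pow m i).symm

/-- `m ∣ ord_τ` for all `τ` implies the existence of an `m`-th root -/
theorem exists_root_mer {m : ℕ} (hm : m ≠ 0) (x : Mer) (hx : x ≠ 0)
    (hord : ∀ τ : ℍ, (m : ℤ) ∣ log (ordAt τ x)) : ∃ h : Mer, h ^ m = x := by
  obtain ⟨a, b, hb, rfl⟩ := MerAux.exists_div x
  have ha : a ≠ 0 := by
    rintro rfl
    simp at hx
  have hb' := MerAux.algebraMap_ne_zero hb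
  obtain ⟨g, hg, hgm⟩ := Fermat.Agent.ES.exists_root m hm ((a * b ^ (m - 1) : Hol) : ℍ → ℂ)
    (a * b ^ (m - 1) : Hol).2 (by
      intro τ
      have h1 := hord τ
      rw [MerAux.log_ordAt_div τ ha hb] at h1
      have hfa := MerAux.analyticAt_hol τ a
      have hfb := MerAux.analyticAt_hol τ b
      have e : (((a * b ^ (m - 1) : Hol) : ℍ → ℂ) ∘ ofComplex) =
          ((a : ℍ → ℂ) ∘ ofComplex) * ((b : ℍ → ℂ) ∘ ofComplex) ^ (m - 1) := by
        funext z
        rfl
      rw [e, analyticOrderAt_mul hfa (hfb.pow _), analyticOrderAt_pow hfb]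
      have hA : holOrd τ a ≠ ⊤ := fun h => ha ((holOrd_eq_top_iff τ a).mp h)
      have hB : holOrd τ b ≠ ⊤ := fun h => hb ((holOrd_eq_top_iff τ b).mp h)
      unfold holOrd at hA hB h1
      rw [hfa.meromorphicOrderAt_eq] at hA h1
      rw [hfb.meromorphicOrderAt_eq] at hB h1
      cases hna : analyticOrderAt ((a : ℍ → ℂ) ∘ ofComplex) (τ : ℂ) with
      | top => simp [hna] at hA
      | coe na =>
        cases hnb : analyticOrderAt ((b : ℍ → ℂ) ∘ ofComplex) (τ : ℂ) with
        | top => simp [hnb] at hB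
        | coe nb =>
          rw [hna, hnb] at h1
          simp only [ENat.map_natCast, WithTop.untop₀_coe] at h1
          have h2 : m ∣ na + (m - 1) * nb := by
            have h3 : (m : ℤ) ∣ ((na + (m - 1) * nb : ℕ) : ℤ) := by
              obtain ⟨c, hc⟩ := h1
              refine ⟨nb - c, ?_⟩
              have hm1 : ((m - 1 : ℕ) : ℤ) = m - 1 := by
                have : 1 ≤ m := Nat.pos_of_ne_zero hm
                push_cast [this]
                ring
              push_cast
              rw [hm1]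
              linear_combination -hc
            exact_mod_cast h3
          obtain ⟨c, hc⟩ := h2
          refine ⟨(c : ℕ∞), ?_⟩
          have : ((na : ℕ∞) + (m - 1 : ℕ) • (nb : ℕ∞)) = ((na + (m - 1) * nb : ℕ) : ℕ∞) := by
            push_cast
            simp
          rw [this, hc]
          push_cast
          rfl)
  refine ⟨algebraMap Hol Mer ⟨g, hg⟩ / algebraMap Hol Mer b, ?_⟩
  have h1 : (⟨g, hg⟩ : Hol) ^ m = a * b ^ (m - 1) := Subtype.ext hgm
  rw [div_pow, ← map_pow, h1, map_mul, map_pow, div_eq_div_iff (pow_ne_zero _ hb') hb',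
    mul_assoc, ← pow_succ, Nat.sub_add_cancel (Nat.pos_of_ne_zero hm)]

end Fermat.Agent.S30.Surj
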