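import Fermat.Agent.S30.SurjAbs
import Fermat.Agent.S30.SurjLift
import Fermat.Agent.S30.SurjLocal
import Fermat.Agent.S30.SurjRoot
import Fermat.Agent.S30.SurjCusp

/-!
# S30/SURJ : every function whose divisor is divisible by `m` is a Kummer element

`exists_isKummer_of_pdiv` : if `m ∣ div u` then `iota u = h ^ m` with `h` of character `e(c/m)`,
`c ∈ Hom_par(Γ₀(N), ℤ)`.
-/

set_option autoImplicit false

open UpperHalfPlane ModularForm WithZero ModularCurve AlgebraicCurve CongruenceSubgroup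
open ModularCurve.Period IntermediateField
open Fermat.Agent.S24 Fermat.Agent.S29 Fermat.Agent.S24.Cusp
open scoped MatrixGroups Manifold

noncomputable section

namespace Fermat.Agent.S30.Surj

variable (N : ℕ) [NeZero N]

theorem ordAt_iota_const_le (τ : ℍ) (a : Kb) : ordAt τ (iota N (algebraMap Kb (FN N) a)) ≤ 1 := by
  rw [iota_algebraMap]
  exact ordAt_const τ _

theorem ordAt_iota_jN_le (τ : ℍ) : ordAt τ (iota N (jN N)) ≤ 1 := by
  show ordAt τ (iota N (jF N 1 (one_dvd N))) ≤ 1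
  rw [iota_jF, ordAt_algebraMap]
  exact holVal_le_one τ _

variable {N}

theorem dvd_log_ordAt {m : ℕ} {u : FN N} (hu : PDiv Kb (FN N) m u) (τ : ℍ) :
    (m : ℤ) ∣ log (ordAt τ (iota N u)) := by
  obtain ⟨f₀, _, h⟩ := exists_unif (K := Kb) (ordAt τ) (iota N) (jN N) (transcendental_jN N)
    (finiteDimensional_FN N) (ordAt_iota_const_le N τ) (ordAt_iota_jN_le N τ)
  obtain ⟨n, hn⟩ := h m u hu
  rw [hn, mul_assoc]
  exact dvd_mul_right _ _

theorem merAct_pow_semi {g : SL(2, ℤ)} {h : Mer} {c : ℂ}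
    (hg : merAct g h = algebraMap ℂ Mer c * h) (j : ℕ) :
    merAct (g ^ j) h = algebraMap ℂ Mer (c ^ j) * h := by
  induction j with
  | zero => simp [merAct_one]
  | succ j ih =>
    rw [pow_succ, merAct_mul, hg, map_mul, merAct_const, ih, pow_succ, map_mul]
    ring

/-- the character of an `m`-th root -/
theorem exists_zet_semi {m : ℕ} (hm : m ≠ 0) {u : FN N} (hu0 : u ≠ 0) {h : Mer}
    (hh : h ^ m = iota N u) (γ : Gamma0 N) :
    ∃ k : ℤ, merAct (γ : SL(2, ℤ)) h = algebraMap ℂ Mer (zet m k) * h := by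
  have h0 : h ≠ 0 := by
    rintro rfl
    rw [zero_pow hm] at hh
    exact hu0 ((map_eq_zero (iota N)).mp hh.symm)
  obtain ⟨k, hk⟩ := exists_zet_of_pow_eq_one hm (merAct (γ : SL(2, ℤ)) h / h) (by
    rw [div_pow, ← map_pow, hh, merAct_iota_of_mem N γ.2, ← hh, div_self (pow_ne_zero _ h0)])
  exact ⟨k, by rw [← hk, div_mul_cancel₀ _ h0]⟩

theorem exists_char {m : ℕ} (hm : m ≠ 0) {u : FN N} (hu0 : u ≠ 0) {h : Mer}
    (hh : h ^ m = iota N u) :
    ∃ κ : Additive (Gamma0 N) →+ ZMod m, ∀ (γ : Gamma0 N) (k : ℤ),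
      (k : ZMod m) = κ (Additive.ofMul γ) →
        merAct (γ : SL(2, ℤ)) h = algebraMap ℂ Mer (zet m k) * h := by
  have h0 : h ≠ 0 := by
    rintro rfl
    rw [zero_pow hm] at hh
    exact hu0 ((map_eq_zero (iota N)).mp hh.symm)
  choose k hk using exists_zet_semi hm hu0 hh
  refine ⟨AddMonoidHom.mk' (fun γ => ((k (Additive.toMul γ) : ℤ) : ZMod m)) ?_, ?_⟩
  · intro a b
    have h1 := hk (Additive.toMul a * Additive.toMul b)
    rw [Subgroup.coe_mul, merAct_mul, hk, map_mul, merAct_const, hk, ← mul_assoc, ← map_mul,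
      ← zet_add] at h1
    have h2 := (algebraMap ℂ Mer).injective (mul_right_cancel₀ h0 h1)
    rw [zet_eq_iff hm] at h2
    show ((k (Additive.toMul a * Additive.toMul b) : ℤ) : ZMod m) = _
    rw [← h2]
    push_cast
    ring
  · intro γ k' hk'
    have h1 : zet m k' = zet m (k γ) := (zet_eq_iff hm _ _).mpr hk'
    rw [h1]
    exact hk γ

/-- triviality of the character on the stabiliser of a point -/
theorem char_trivial_fix {m : ℕ} (hm : m ≠ 0) {u : FN N} (hu : PDiv Kb (FN N) m u) {h : Mer}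
    (hh : h ^ m = iota N u) (γ : Gamma0 N) (τ : ℍ) (hfix : (γ : SL(2, ℤ)) • τ = τ) (χ : ℂ)
    (hχ : merAct (γ : SL(2, ℤ)) h = algebraMap ℂ Mer χ * h) : χ = 1 :=
  char_eq_one (K := Kb) (ordAt τ) (iota N) (jN N) (transcendental_jN N)
    (finiteDimensional_FN N) (ordAt_iota_const_le N τ) (ordAt_iota_jN_le N τ)
    (fun x χ => merAct (γ : SL(2, ℤ)) x = algebraMap ℂ Mer χ * x)
    (denom (((γ : SL(2, ℤ))⁻¹ : SL(2, ℤ)) : GL (Fin 2) ℝ) τ ^ 2)
    (fun x χ hx hP => char_fix (γ : SL(2, ℤ))⁻¹ τ (by rw [inv_smul_eq_iff, hfix]) x χ hx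
      (by rwa [inv_inv]))
    (fun f => by rw [map_one, one_mul]; exact merAct_iota_of_mem N γ.2 f) hm hu hh hχ

theorem merAct_iota_mem_range (r : SL(2, ℤ)) (θ : FN N) :
    merAct r (iota N θ) ∈ (emb N).range := by
  obtain ⟨m, A, B, hB, h⟩ := exists_quot N θ
  exact merAct_mem_range N A B hB r (iota N θ) h

/-- the conjugate embedding with values in `MerB M` -/
def sigmaR (M : ℕ) (hM : N ∣ M) (r : SL(2, ℤ)) : FN N →+* MerB M :=
  (embEquiv M).symm.toRingHom.comp
    (((merAct r).toRingHom.comp (iota N)).codRestrict (emb M).range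
      (fun θ => range_emb_mono hM (merAct_iota_mem_range r θ)))

theorem emb_sigmaR (M : ℕ) (hM : N ∣ M) (r : SL(2, ℤ)) (θ : FN N) :
    emb M (sigmaR M hM r θ) = merAct r (iota N θ) := by
  have h : embEquiv M (sigmaR M hM r θ) =
      ((merAct r).toRingHom.comp (iota N)).codRestrict (emb M).range
        (fun θ => range_emb_mono hM (merAct_iota_mem_range r θ)) θ :=
    (embEquiv M).apply_symm_apply _
  exact congrArg Subtype.val h

/-- triviality of the character on the stabiliser of a cusp -/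
theorem char_trivial_cusp {m : ℕ} (hm : m ≠ 0) {u : FN N} (hu : PDiv Kb (FN N) m u) {h : Mer}
    (hh : h ^ m = iota N u) (r : SL(2, ℤ)) (k : ℤ) (γ : Gamma0 N)
    (hγ : (γ : SL(2, ℤ)) = r⁻¹ * ModularGroup.T ^ k * r) (χ : ℂ)
    (hχ : merAct (γ : SL(2, ℤ)) h = algebraMap ℂ Mer χ * h) : χ = 1 := by
  have : NeZero m := ⟨hm⟩
  have hM : N ∣ N * m := dvd_mul_right _ _
  -- periodicity of `x = merAct r h`
  have hper : merAct (ModularGroup.T ^ ((N * m : ℕ) : ℤ)) (merAct r h) = merAct r h := by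
    have hmem : r⁻¹ * ModularGroup.T ^ (N : ℤ) * r ∈ Gamma0 N := by
      have := conj_T_pow_mem N r⁻¹
      rwa [inv_inv] at this
    obtain ⟨k₀, hk₀⟩ := exists_zet_semi hm hu.1 hh ⟨_, hmem⟩
    have h1 := merAct_pow_semi hk₀ m
    rw [zet_pow_self hm, map_one, one_mul] at h1
    have h2 : ModularGroup.T ^ ((N * m : ℕ) : ℤ) * r =
        r * (r⁻¹ * ModularGroup.T ^ (N : ℤ) * r) ^ m := by
      have h3 := conj_pow (a := r⁻¹) (b := ModularGroup.T ^ (N : ℤ)) (i := m)
      rw [inv_inv] at h3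
      rw [h3, ← zpow_natCast (ModularGroup.T ^ (N : ℤ)) m, ← zpow_mul]
      push_cast
      group
    rw [← merAct_mul, h2, merAct_mul]
    exact congrArg _ h1
  have hxm : (merAct r h) ^ m = merAct r (iota N u) := by rw [← map_pow, hh]
  obtain ⟨x', hx'⟩ := mem_range_of_pow hm (N * m) (merAct r h)
    (by rw [hxm]; exact range_emb_mono hM (merAct_iota_mem_range r u)) hper
  have hTr : ModularGroup.T ^ k * r = r * (γ : SL(2, ℤ)) := by
    rw [hγ]; group
  refine char_eq_one (K := Kb) (wB (N * m)) (sigmaR (N * m) hM r) (jN N)⁻¹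
    (transcendental_inv _ (transcendental_jN N))
    (finiteDimensional_adjoin_inv _ (finiteDimensional_FN N)) ?_ ?_
    (fun x' χ => merAct (ModularGroup.T ^ k) (emb (N * m) x') =
      algebraMap ℂ Mer χ * emb (N * m) x')
    (zetaK (N * m) k) (fun x χ hx hP => char_cusp (N * m) k x χ hx hP) ?_ hm hu (x := x') ?_ ?_
  · intro a
    have : sigmaR (N * m) hM r (algebraMap Kb (FN N) a) =
        algebraMap (HolB (N * m)) (MerB (N * m)) (algebraMap ℂ (HolB (N * m)) (kappa a)) := by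
      apply emb_injective (N * m)
      rw [emb_sigmaR, emb_const, iota_algebraMap, merAct_const]
    rw [this]
    exact wB_const_le _ _
  · have : sigmaR (N * m) hM r (jN N) = jB (N * m) := by
      apply emb_injective (N * m)
      rw [emb_sigmaR, emb_jB]
      show merAct r (iota N (jF N 1 (one_dvd N))) = _
      rw [iota_jF, merAct_algebraMap, Cusp.jHd_one, holAct_jH]
    rw [map_inv₀, map_inv₀, this, wB_jB, ← exp_neg, ← exp_zero, exp_le_exp]
    simp only [Left.neg_nonpos_iff]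
    positivity
  · intro f
    rw [emb_sigmaR, ← merAct_mul, hTr, merAct_mul, merAct_iota_of_mem N γ.2, map_one, one_mul]
  · apply emb_injective (N * m)
    rw [map_pow, hx', hxm, emb_sigmaR]
  · show merAct (ModularGroup.T ^ k) (emb (N * m) x') = algebraMap ℂ Mer χ * emb (N * m) x'
    rw [hx', ← merAct_mul, hTr, merAct_mul, hχ, map_mul, merAct_const]

theorem zpow_smul_fix (g : SL(2, ℤ)) (τ : ℍ) (hfix : g • τ = τ) (k : ℤ) : (g ^ k) • τ = τ := by
  have h1 : g ∈ MulAction.stabilizer SL(2, ℤ) τ := hfix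
  exact (MulAction.stabilizer SL(2, ℤ) τ).zpow_mem h1 k

theorem conj_smul_fix (g r : SL(2, ℤ)) (τ : ℍ) (hfix : g • τ = τ) (k : ℤ) :
    (r⁻¹ * g ^ k * r) • (r⁻¹ • τ) = r⁻¹ • τ := by
  rw [mul_smul, mul_smul, smul_inv_smul, zpow_smul_fix g τ hfix]

variable (N)

/-- surjectivity of `Hom_par(Γ₀(N), ℤ) → W_m` -/
theorem exists_isKummer_of_pdiv (m : ℕ) (hm : m ≠ 0) (u : FN N) (hu : PDiv Kb (FN N) m u) :
    ∃ c : XN N, IsKummer N m (c : Additive (Gamma0 N) →+ ℤ) u := by
  have hu0 : iota N u ≠ 0 := (map_ne_zero (iota N)).mpr hu.1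
  obtain ⟨h, hh⟩ := exists_root_mer hm (iota N u) hu0 (dvd_log_ordAt hu)
  have h0 : h ≠ 0 := by
    rintro rfl
    rw [zero_pow hm] at hh
    exact hu0 hh.symm
  obtain ⟨κ, hκ⟩ := exists_char hm hu.1 hh
  have key : ∀ γ : Gamma0 N,
      (∀ χ : ℂ, merAct (γ : SL(2, ℤ)) h = algebraMap ℂ Mer χ * h → χ = 1) →
      κ (Additive.ofMul γ) = 0 := by
    intro γ hγ
    obtain ⟨k, hk⟩ := ZMod.intCast_surjective (κ (Additive.ofMul γ))
    have h1 := hγ _ (hκ γ k hk)
    rw [zet_eq_one_iff hm] at h1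
    rw [← hk]
    exact (ZMod.intCast_zmod_eq_zero_iff_dvd k m).mpr h1
  obtain ⟨κt, hpar, hκt⟩ := exists_lift_conj N m κ
    (fun r k γ hγ => key γ (fun χ hχ => char_trivial_cusp hm hu hh r k γ hγ χ hχ))
    (fun r k γ hγ => key γ (fun χ hχ => char_trivial_fix hm hu hh γ (r⁻¹ • I)
      (by rw [hγ]; exact conj_smul_fix _ r I S_smul_I k) χ hχ))
    (fun r k γ hγ => key γ (fun χ hχ => char_trivial_fix hm hu hh γ (r⁻¹ • rho)
      (by rw [hγ]; exact conj_smul_fix _ r rho ST_smul_rho k) χ hχ))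
  exact ⟨⟨κt, hpar⟩, h, h0, hh.symm, fun γ => hκ γ _ (hκt _)⟩

end Fermat.Agent.S30.Surj
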