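import Fermat.Agent.S30.ESAbs
import Fermat.Agent.S30.Surj
import Fermat.Agent.S31.Lat
import Fermat.Agent.S29.ESRel
import Fermat.Agent.S29.K3Final
import Fermat.Agent.S29.Descent
import Fermat.Agent.S18.KLAll

/-!
# S30/ES : the Eichler–Shimura tower exists

Wiring of `S29/Wiring.lean` (`WW N (p ^ m)`, `actW`, `Theta`), `S31/Lat.lean` (`kap`),
`S30/Surj.lean` (the image of `Theta` is Galois stable) into `esTower_of_raw`.
-/

set_option autoImplicit false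

open CongruenceSubgroup Fermat.Agent.S24 Fermat.Agent.S29 Fermat.Agent.ES.Alg
open scoped MatrixGroups

noncomputable section

namespace Fermat.Agent.S30

theorem zet_mul_pow (m d : ℕ) (hd : d ≠ 0) (k : ℤ) : zet (m * d) k ^ d = zet m k := by
  unfold zet
  rw [← Complex.exp_nat_mul]
  congr 1
  have hd' : (d : ℂ) ≠ 0 := by exact_mod_cast hd
  by_cases hm : (m : ℂ) = 0
  · simp [hm]
  · push_cast
    field_simp

/-- a Kummer element for the exponent `m * d` is a Kummer element for the exponent `m` -/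
theorem isKummer_of_mul {N : ℕ} [NeZero N] (m d : ℕ) (hd : d ≠ 0)
    {c : Additive (Gamma0 N) →+ ℤ} {u : FN N} (h : IsKummer N (m * d) c u) : IsKummer N m c u := by
  obtain ⟨h, h0, hpow, hchar⟩ := h
  refine ⟨h ^ d, pow_ne_zero _ h0, by rw [hpow, ← pow_mul, mul_comm], fun γ => ?_⟩
  rw [map_pow, hchar γ, mul_pow, ← map_pow, zet_mul_pow m d hd]

theorem exists_of_cl_eq {N p : ℕ} {u v : FN N} (hu : u ≠ 0) (hv : v ≠ 0)
    (h : (cl u hu : WW N p) = cl v hv) : ∃ r : FN N, u = v * r ^ p := by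
  have h1 : (QuotientGroup.mk (Units.mk0 v hv) : (FN N)ˣ ⧸ powSub N p) =
      QuotientGroup.mk (Units.mk0 u hu) := h.symm
  obtain ⟨r, hr⟩ := QuotientGroup.eq.mp h1
  refine ⟨r, ?_⟩
  have h2 : (r : FN N) ^ p = v⁻¹ * u := by
    have := congrArg (fun x : (FN N)ˣ => (x : FN N)) hr
    simpa using this
  rw [h2, mul_inv_cancel_left₀ hv]

theorem desc (N m : ℕ) [NeZero N] : Desc N m := fun c hc => desc_holds N m c hc

theorem Theta_stab {N m : ℕ} [NeZero N] (hm : m ≠ 0) (g : GQ) (c : XN N) :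
    ∃ c' : XN N, actW N m g (Theta hm (desc N m) c) = Theta hm (desc N m) c' := by
  have hP : PDiv Kb (FN N) m (gal N g (uK (desc N m) c)) :=
    PDiv.gal (pdiv_of_isKummer N m c c.2 _ (isKummer_uK (desc N m) c)) g
  obtain ⟨c', hc'⟩ := Surj.exists_isKummer_of_pdiv N m hm _ hP
  refine ⟨c', ?_⟩
  rw [Theta_eq hm (desc N m) c' hc', Theta_apply, actW_cl]

theorem Theta_compat {N : ℕ} [NeZero N] (m d : ℕ) (hm : m ≠ 0) (hd : d ≠ 0) (g : GQ) (c c' : XN N)
    (h : actW N (m * d) g (Theta (mul_ne_zero hm hd) (desc N (m * d)) c) =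
      Theta (mul_ne_zero hm hd) (desc N (m * d)) c') :
    actW N m g (Theta hm (desc N m) c) = Theta hm (desc N m) c' := by
  have k1 := isKummer_of_mul m d hd (isKummer_uK (desc N (m * d)) c)
  have k2 := isKummer_of_mul m d hd (isKummer_uK (desc N (m * d)) c')
  rw [Theta_apply, Theta_apply, actW_cl] at h
  obtain ⟨r, hr⟩ := exists_of_cl_eq _ _ h
  rw [Theta_eq hm (desc N m) c k1, Theta_eq hm (desc N m) c' k2, actW_cl]
  refine cl_eq_of_eq_mul hm (r := r ^ d) _ _ ?_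
  rw [hr, ← pow_mul, mul_comm d m]

theorem esTower_of_KL (N : ℕ) [NeZero N] (S : Set ℕ) (hNS : ∀ q : ℕ, q.Prime → q ∣ N → q ∈ S)
    (p : ℕ) (hp : p.Prime) (hpS : p ∈ S) (hKL : KLAll N) : Nonempty (ESTower N S p) := by
  have hm : ∀ m : ℕ, p ^ m ≠ 0 := fun m => pow_ne_zero m hp.ne_zero
  have hdvd : ∀ (m ℓ : ℕ), ℓ.Prime → ¬ ℓ ∣ N → ℓ ≠ p → ¬ ℓ ∣ N * p ^ m := by
    intro m ℓ hℓ hℓN hℓp h
    rcases (Nat.Prime.dvd_mul hℓ).mp h with h | h
    · exact hℓN h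
    · exact hℓp ((Nat.prime_dvd_prime_iff_eq hℓ hp).mp (hℓ.dvd_of_dvd_pow h))
  refine esTower_of_raw hpS hNS (XN N) Fermat.Agent.S31.kap Fermat.Agent.S31.kap_injective
    (fun m => WW N (p ^ m)) (fun m => actW N (p ^ m)) (fun m => Theta (hm m) (desc N (p ^ m)))
    (fun m w => nsmul_WW w) (fun m c h => Theta_ker (hm m) _ c h)
    (fun m c => Theta_level (hm m) _ c) (fun m g c => Theta_stab (hm m) g c) ?_ ?_ ?_
  · intro m g c c' h
    exact Theta_compat (p ^ m) p (hm m) hp.ne_zero g c c' h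
  · intro m ℓ hℓ hℓN hℓS A hA σ hσ g c
    have hℓp : ℓ ≠ p := fun h => hℓS (h ▸ hpS)
    have h := Theta_ES (hm m) (desc N (p ^ m)) (k3_holds N (p ^ m)) (es1_of_KL N (p ^ m) hKL)
      ℓ hℓ (hdvd m ℓ hℓ hℓN hℓp) A hA σ hσ g c
    rw [TX_eq hℓ hℓN] at h
    rw [Fermat.Agent.S31.kap_T hℓ hℓN hℓS]
    exact h
  · intro m q hq hqN hqp A hA τ hτ g c
    exact Theta_inertia (hm m) (desc N (p ^ m)) (es2_of_KL N (p ^ m) hKL) q hq
      (hdvd m q hq hqN hqp) A hA τ hτ g c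

theorem exists_esTower (N : ℕ) [NeZero N] (S : Set ℕ) (hNS : ∀ q : ℕ, q.Prime → q ∣ N → q ∈ S)
    (p : ℕ) (hp : p.Prime) (hpS : p ∈ S) : Nonempty (ESTower N S p) :=
  esTower_of_KL N S hNS p hp hpS
    (fun ℓ A hℓ hℓN hA => Fermat.Agent.S18.klAll N ℓ A hℓ hℓN hA)

end Fermat.Agent.S30
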