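import Fermat.Agent.S30.Defs

/-!
# S30/EIG : existence of an eigenvector (pure commutative algebra, Mathlib only)

`exists_eigenvector_of_faithful`: `A` a finite dimensional commutative algebra over a field `L`
acting faithfully on `V`, `χ : A →ₐ[L] L`.  Then there is `v ≠ 0` with `x v = χ(x) v` for all `x`.
Proof.  `𝔪 = ker χ`.  `A` is artinian: `𝔪 ^ n = 𝔪 ^ (n+1)` for some `n ≥ 1`; `J = 𝔪 ^ n` is a finitely
generated idempotent ideal, so `J = (e)`, `e² = e` (`Ideal.isIdempotentElem_iff_of_fg`).  `χ e = 0`,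
so `1 - e ≠ 0`, so `v₀ = (1 - e) w ≠ 0` for some `w`.  `𝔪 ^ n v₀ = 0`.  Let `k` be minimal with
`𝔪 ^ k v₀ = 0` (`k ≥ 1`); pick `y ∈ 𝔪 ^ (k-1)` with `v = y v₀ ≠ 0`; then `𝔪 v = 0`.

`exists_eigenvector`: apply this to `A = L ⊗[ℤ] 𝕋`, `α : A → M_d(L)` (injective because `L` is flat
over `ℤ` and `L ⊗ M_d(ℤ) = M_d(L)`, `matrixEquivTensor`), `χ_A = id ⊗ χ`.
-/

set_option autoImplicit false

namespace Fermat.Agent.S30

open scoped TensorProduct

namespace EigenAux

/-- In a finite dimensional commutative algebra, the kernel of a character has a nonzero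
annihilator. -/
theorem exists_ann {L A : Type*} [Field L] [CommRing A] [Algebra L A]
    [FiniteDimensional L A] (χ : A →ₐ[L] L) :
    ∃ y : A, y ≠ 0 ∧ ∀ x, x * y = algebraMap L A (χ x) * y := by
  have hart : IsArtinianRing A := IsArtinianRing.of_finite L A
  have hnoe : IsNoetherianRing A := inferInstance
  set 𝔪 : Ideal A := RingHom.ker χ.toRingHom with h𝔪
  have hmem : ∀ x, x ∈ 𝔪 ↔ χ x = 0 := fun x => Iff.rfl
  obtain ⟨n, hn⟩ := IsArtinian.monotone_stabilizes (R := A) (M := A)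
    ⟨fun k => OrderDual.toDual (𝔪 ^ k), fun i j hij => Ideal.pow_le_pow_right hij⟩
  have hn1 : 𝔪 ^ n = 𝔪 ^ (n + 1) := hn (n + 1) (Nat.le_succ n)
  obtain ⟨r, hr1, hr2⟩ := Submodule.exists_sub_one_mem_and_smul_eq_zero_of_fg_of_le_smul 𝔪 (𝔪 ^ n)
    (IsNoetherian.noetherian _) (by
      rw [smul_eq_mul, ← pow_succ', ← hn1])
  have hr0 : r ≠ 0 := by
    rintro rfl
    rw [hmem] at hr1
    simp at hr1
  let P : ℕ → Prop := fun k => ∀ y ∈ 𝔪 ^ k, y * r = 0
  have hPn : ∃ k, P k := ⟨n, fun y hy => by rw [mul_comm]; exact hr2 y hy⟩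
  classical
  have hk := Nat.find_spec hPn
  have hk0 : Nat.find hPn ≠ 0 := by
    intro h0
    rw [h0] at hk
    exact hr0 (by simpa using hk 1 (by simp))
  obtain ⟨k, hk'⟩ := Nat.exists_eq_succ_of_ne_zero hk0
  have hkm : ¬ P k := Nat.find_min hPn (by omega)
  simp only [P, not_forall] at hkm
  obtain ⟨y, hy, hyr⟩ := hkm
  refine ⟨y * r, hyr, fun x => ?_⟩
  have hx : x - algebraMap L A (χ x) ∈ 𝔪 := by
    rw [hmem, map_sub, AlgHom.commutes]
    simp
  have h1 : (x - algebraMap L A (χ x)) * y ∈ 𝔪 ^ (Nat.find hPn) := by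
    rw [hk', Nat.succ_eq_add_one, pow_succ']
    exact Ideal.mul_mem_mul hx hy
  have h2 := hk _ h1
  rw [← sub_eq_zero, ← sub_mul, ← mul_assoc]
  exact h2

end EigenAux

theorem exists_eigenvector_of_faithful {L A V : Type*} [Field L] [CommRing A] [Algebra L A]
    [FiniteDimensional L A] [AddCommGroup V] [Module L V]
    (α : A →ₐ[L] Module.End L V) (hα : Function.Injective α) (χ : A →ₐ[L] L) :
    ∃ v : V, v ≠ 0 ∧ ∀ x, α x v = χ x • v := by
  obtain ⟨y, hy0, hy⟩ := EigenAux.exists_ann χ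
  have h1 : α y ≠ 0 := fun h => hy0 (hα (by rw [h, map_zero]))
  obtain ⟨w, hw⟩ : ∃ w, α y w ≠ 0 := by
    by_contra hcon
    push Not at hcon
    exact h1 (LinearMap.ext hcon)
  refine ⟨α y w, hw, fun x => ?_⟩
  have h2 := congrArg (fun z => α z w) (hy x)
  simp only [map_mul, AlgHom.commutes, Module.End.mul_apply, Module.algebraMap_end_apply] at h2
  exact h2

theorem exists_eigenvector {𝕋 : Type*} [CommRing 𝕋] {d : ℕ} (a : 𝕋 →+* Mat d ℤ)
    (ha : Function.Injective a) {L : Type*} [Field L] [CharZero L] (χ : 𝕋 →+* L) :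
    ∃ v : Fin d → L, v ≠ 0 ∧ ∀ x, ((a x).map (Int.castRingHom L)).mulVec v = χ x • v := by
  have hfin : Module.Finite ℤ 𝕋 :=
    Module.Finite.of_injective a.toIntAlgHom.toLinearMap ha
  have hflat : Module.Flat ℤ L := inferInstance
  -- the character
  let χA : L ⊗[ℤ] 𝕋 →ₐ[L] L :=
    Algebra.TensorProduct.lift (AlgHom.id L L) χ.toIntAlgHom fun _ _ => Commute.all _ _
  -- the action
  let g : 𝕋 →+* Module.End L (Fin d → L) :=
    ((Matrix.toLinAlgEquiv' (R := L) (n := Fin d)).toAlgHom.toRingHom.comp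
      (Int.castRingHom L).mapMatrix).comp a
  let α : L ⊗[ℤ] 𝕋 →ₐ[L] Module.End L (Fin d → L) :=
    Algebra.TensorProduct.lift (Algebra.ofId L _) g.toIntAlgHom
      fun l x => Algebra.commutes l _
  have hαt : ∀ (l : L) (x : 𝕋), α (l ⊗ₜ x) = l • g x := by
    intro l x
    have := Algebra.TensorProduct.lift_tmul (Algebra.ofId L (Module.End L (Fin d → L)))
      g.toIntAlgHom (fun l x => Algebra.commutes l _) l x
    rw [Algebra.smul_def]
    exact this
  have hαe : ∀ z, α z = Matrix.toLinAlgEquiv' ((matrixEquivTensor (Fin d) ℤ L).symm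
      (a.toIntAlgHom.toLinearMap.lTensor L z)) := by
    intro z
    induction z using TensorProduct.induction_on with
    | zero => simp
    | tmul l x =>
      rw [hαt, LinearMap.lTensor_tmul, matrixEquivTensor_apply_symm, map_smul]
      rfl
    | add z w hz hw => simp only [map_add, hz, hw]
  have hα : Function.Injective α := by
    intro z w hzw
    rw [hαe, hαe] at hzw
    have h1 := (matrixEquivTensor (Fin d) ℤ L).symm.injective
      ((Matrix.toLinAlgEquiv' (R := L) (n := Fin d)).injective hzw)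
    exact Module.Flat.lTensor_preserves_injective_linearMap _ ha h1
  obtain ⟨v, hv0, hv⟩ := exists_eigenvector_of_faithful α hα χA
  refine ⟨v, hv0, fun x => ?_⟩
  have := hv (1 ⊗ₜ x)
  rw [hαt, one_smul] at this
  simp only [χA, Algebra.TensorProduct.lift_tmul, map_one, one_mul] at this
  exact this

end Fermat.Agent.S30
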