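import Fermat.Agent.S30.Defs
import Fermat.Agent.ES.Extract

/-!
# S30/LAT : the saturated lattice of an invariant subspace (Mathlib only)

`O` a PID with fraction field `L`, `U ⊆ L ^ d` a subspace.  `Λ = {w ∈ O ^ d : w ∈ U}` is a free
`O`-module (submodule of a free module over a PID); an `O`-basis of `Λ` is an `L`-basis of `U`
(`LinearIndependent.iff_fractionRing`, clearing denominators `IsLocalization.exist_integer_multiples`).
If `U` is stable under matrices `R g ∈ M_d(O)`, the matrices of the `R g` in that basis have entries
in `O`, and `R g ≡ 1 mod I` implies `M g ≡ 1 mod I` because `Λ` is saturated (`I = (x)`: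
`(R g - 1) b_j = x w`, `w ∈ O ^ d`, `w ∈ U`, so `w ∈ Λ`).
-/

set_option autoImplicit false

namespace Fermat.Agent.S30

open Fermat.Agent.ES.ExtractAux

variable {O L : Type*} [CommRing O] [IsDomain O] [IsPrincipalIdealRing O] [Field L] [Algebra O L]
  [IsFractionRing O L]

/-- the representation on `L ^ d` given by matrices over `O` -/
noncomputable def linRep (L : Type*) [Field L] [Algebra O L] {G : Type*} [Group G] {d : ℕ}
    (R : G →* Mat d O) : G →* Module.End L (Fin d → L) :=
  ((Matrix.toLinAlgEquiv' : Mat d L ≃ₐ[L] Module.End L (Fin d → L)) : Mat d L →* _).comp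
    ((((algebraMap O L).mapMatrix : Mat d O →+* Mat d L) : Mat d O →* Mat d L).comp R)

theorem linRep_apply {G : Type*} [Group G] {d : ℕ} (R : G →* Mat d O) (g : G) (v : Fin d → L) :
    linRep L R g v = ((R g).map (algebraMap O L)).mulVec v := rfl

namespace LatAux

/-- coordinatewise `algebraMap` as an `O`-linear map -/
noncomputable def io (O L : Type*) [CommRing O] [Field L] [Algebra O L] (d : ℕ) :
    (Fin d → O) →ₗ[O] (Fin d → L) :=
  (Algebra.linearMap O L).compLeft (Fin d)

omit [IsDomain O] [IsPrincipalIdealRing O] [IsFractionRing O L] in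
theorem io_apply {d : ℕ} (w : Fin d → O) : io O L d w = fun k => algebraMap O L (w k) := rfl

omit [IsDomain O] [IsPrincipalIdealRing O] in
theorem io_injective (d : ℕ) : Function.Injective (io O L d) := fun _ _ h =>
  funext fun k => IsFractionRing.injective O L (congrFun h k)

omit [IsDomain O] [IsPrincipalIdealRing O] [IsFractionRing O L] in
theorem io_mulVec {d : ℕ} (A : Mat d O) (w : Fin d → O) :
    io O L d (A.mulVec w) = (A.map (algebraMap O L)).mulVec (io O L d w) := by
  ext i
  simp only [io_apply, Matrix.mulVec, dotProduct, Matrix.map_apply, map_sum, map_mul]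

end LatAux

open LatAux

theorem exists_lattice_basis {d : ℕ} (U : Submodule L (Fin d → L)) :
    ∃ b : Fin (Module.finrank L U) → (Fin d → O),
      LinearIndependent L (fun i => (fun k => algebraMap O L (b i k))) ∧
      Submodule.span L (Set.range fun i => (fun k => algebraMap O L (b i k))) = U ∧
      ∀ w : Fin d → O, (fun k => algebraMap O L (w k)) ∈ U →
        ∃ c : Fin (Module.finrank L U) → O, w = ∑ i, c i • b i := by
  classical
  let Λ : Submodule O (Fin d → O) := (U.restrictScalars O).comap (io O L d)
  obtain ⟨n, bΛ⟩ := Submodule.basisOfPid (Pi.basisFun O (Fin d)) Λ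
  have hvO : LinearIndependent O (fun i => io O L d ((bΛ i : Λ) : Fin d → O)) := by
    have h1 : LinearIndependent O (fun i => ((bΛ i : Λ) : Fin d → O)) :=
      bΛ.linearIndependent.map' Λ.subtype (Submodule.ker_subtype _)
    exact h1.map' (io O L d) (LinearMap.ker_eq_bot.2 (io_injective d))
  have hvL : LinearIndependent L (fun i => io O L d ((bΛ i : Λ) : Fin d → O)) :=
    (LinearIndependent.iff_fractionRing O L).1 hvO
  have hrep : ∀ w : Fin d → O, io O L d w ∈ U →
      ∃ c : Fin n → O, w = ∑ i, c i • ((bΛ i : Λ) : Fin d → O) := by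
    intro w hw
    refine ⟨fun i => bΛ.repr ⟨w, hw⟩ i, ?_⟩
    have := congrArg (Subtype.val) (bΛ.sum_repr ⟨w, hw⟩)
    rw [Submodule.coe_sum] at this
    exact this.symm
  have hspan : Submodule.span L (Set.range fun i => io O L d ((bΛ i : Λ) : Fin d → O)) = U := by
    apply le_antisymm
    · rw [Submodule.span_le]
      rintro _ ⟨i, rfl⟩
      exact (bΛ i).2
    · intro u hu
      obtain ⟨c, hc⟩ := IsLocalization.exist_integer_multiples_of_finite (nonZeroDivisors O) u
      choose w hw using hc
      have hwu : io O L d w = (algebraMap O L (c : O)) • u := by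
        ext k
        show algebraMap O L (w k) = _
        rw [hw k, Pi.smul_apply, Algebra.smul_def, smul_eq_mul]
      have hwU : io O L d w ∈ U := by
        rw [hwu]; exact U.smul_mem _ hu
      obtain ⟨e, he⟩ := hrep w hwU
      have hc0 : algebraMap O L (c : O) ≠ 0 := by
        have := nonZeroDivisors.ne_zero c.2
        exact (map_ne_zero_iff (algebraMap O L) (IsFractionRing.injective O L)).2 this
      have hu' : u = (algebraMap O L (c : O))⁻¹ • io O L d w := by
        rw [hwu, smul_smul, inv_mul_cancel₀ hc0, one_smul]
      rw [hu']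
      refine Submodule.smul_mem _ _ ?_
      rw [he, map_sum]
      refine Submodule.sum_mem _ fun i _ => ?_
      rw [map_smul, ← algebraMap_smul L (e i)]
      exact Submodule.smul_mem _ _ (Submodule.subset_span ⟨i, rfl⟩)
  have hn : n = Module.finrank L U := by
    have := finrank_span_eq_card hvL
    rw [hspan, Fintype.card_fin] at this
    exact this.symm
  subst hn
  exact ⟨fun i => ((bΛ i : Λ) : Fin d → O), hvL, hspan, hrep⟩

theorem exists_integral_rep {G : Type*} [Group G] {d : ℕ} (R : G →* Mat d O)
    (U : Submodule L (Fin d → L)) (hU : ∀ g, ∀ v ∈ U, linRep L R g v ∈ U)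
    (r : ℕ) (hr : Module.finrank L U = r) :
    ∃ (M : G →* Mat r O) (B : Module.Basis (Fin r) L U),
      (∀ g, LinearMap.toMatrix B B (resRep (linRep L R) U hU g) = (M g).map (algebraMap O L)) ∧
      (∀ (I : Ideal O) (g : G), MMem I (R g - 1) → MMem I (M g - 1)) := by
  classical
  subst hr
  obtain ⟨b, hli, hspan, hrep⟩ := exists_lattice_basis (O := O) U
  have hbU : ∀ i, io O L d (b i) ∈ U := fun i => by
    rw [← hspan]; exact Submodule.subset_span ⟨i, rfl⟩
  -- the basis of `U`
  let vb : Fin (Module.finrank L U) → U := fun i => ⟨io O L d (b i), hbU i⟩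
  have hvli : LinearIndependent L vb := by
    apply LinearIndependent.of_comp U.subtype
    exact hli
  have hvsp : ⊤ ≤ Submodule.span L (Set.range vb) := by
    rintro ⟨u, hu⟩ -
    have hu' : u ∈ Submodule.span L (Set.range fun i => io O L d (b i)) := by
      rw [show (fun i => io O L d (b i)) = fun i => (fun k => algebraMap O L (b i k)) from rfl,
        hspan]
      exact hu
    have hmap : Submodule.map U.subtype (Submodule.span L (Set.range vb)) =
        Submodule.span L (Set.range fun i => io O L d (b i)) := by
      rw [Submodule.map_span, ← Set.range_comp]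
      rfl
    rw [← hmap] at hu'
    obtain ⟨y, hy, hyu⟩ := hu'
    have : y = ⟨u, hu⟩ := Subtype.ext hyu
    rwa [← this]
  let B : Module.Basis (Fin (Module.finrank L U)) L U := Module.Basis.mk hvli hvsp
  have hB : ∀ i, ((B i : U) : Fin d → L) = io O L d (b i) := fun i => by
    simp [B, vb]
  -- uniqueness of coefficients
  have huniq : ∀ c c' : Fin (Module.finrank L U) → O,
      ∑ i, c i • b i = ∑ i, c' i • b i → c = c' := by
    intro c c' h
    have h1 := congrArg (io O L d) h
    simp only [map_sum, map_smul] at h1
    have h2 : ∑ i, (algebraMap O L (c i) - algebraMap O L (c' i)) • io O L d (b i) = 0 := by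
      simp only [sub_smul, Finset.sum_sub_distrib, algebraMap_smul]
      rw [h1, sub_self]
    have h3 := (Fintype.linearIndependent_iff.1 hli) _ h2
    funext i
    exact IsFractionRing.injective O L (sub_eq_zero.1 (h3 i))
  -- integral matrices
  have hex : ∀ g, ∃ Mg : Mat (Module.finrank L U) O,
      (∀ j, (R g).mulVec (b j) = ∑ i, Mg i j • b i) ∧
      LinearMap.toMatrix B B (resRep (linRep L R) U hU g) = Mg.map (algebraMap O L) := by
    intro g
    have h1 : ∀ j, ∃ c : Fin (Module.finrank L U) → O, (R g).mulVec (b j) = ∑ i, c i • b i := by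
      intro j
      apply hrep
      have := hU g _ (hbU j)
      rw [linRep_apply, ← io_mulVec] at this
      exact this
    choose c hc using h1
    refine ⟨Matrix.of fun i j => c j i, fun j => by simpa using hc j, ?_⟩
    ext i j
    rw [LinearMap.toMatrix_apply, Matrix.map_apply, Matrix.of_apply]
    have h2 : resRep (linRep L R) U hU g (B j) = ∑ i, algebraMap O L (c j i) • B i := by
      apply Subtype.ext
      rw [coe_resRep_apply, hB, linRep_apply, ← io_mulVec, hc j]
      rw [map_sum, Submodule.coe_sum]
      refine Finset.sum_congr rfl fun i _ => ?_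
      rw [map_smul, Submodule.coe_smul, hB, algebraMap_smul]
    rw [h2, B.repr_sum_self]
  choose M0 hM0 hM0' using hex
  have hmapinj : Function.Injective
      (fun X : Mat (Module.finrank L U) O => X.map (algebraMap O L)) := by
    intro X Y h
    ext i j
    exact IsFractionRing.injective O L (congrFun (congrFun h i) j)
  let M : G →* Mat (Module.finrank L U) O :=
    { toFun := M0
      map_one' := by
        apply hmapinj
        show (M0 1).map (algebraMap O L) = (1 : Mat _ O).map (algebraMap O L)
        rw [← hM0', map_one, Matrix.map_one _ (map_zero _) (map_one _)]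
        exact LinearMap.toMatrix_one B
      map_mul' := fun g h => by
        apply hmapinj
        show (M0 (g * h)).map (algebraMap O L) = (M0 g * M0 h).map (algebraMap O L)
        rw [← hM0', map_mul, Matrix.map_mul, ← hM0', ← hM0']
        exact LinearMap.toMatrix_mul B _ _ }
  refine ⟨M, B, hM0', ?_⟩
  intro I g hI
  obtain ⟨x, rfl⟩ := IsPrincipalIdealRing.principal I |>.principal
  -- for each `j` : `(R g - 1) b_j = x • w`
  intro i j
  have h1 : ∀ k, ∃ y : O, ((R g - 1).mulVec (b j)) k = x * y := by
    intro k
    have : ((R g - 1).mulVec (b j)) k ∈ Ideal.span {x} := by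
      rw [Matrix.mulVec, dotProduct]
      exact Ideal.sum_mem _ fun l _ => Ideal.mul_mem_right _ _ (hI k l)
    obtain ⟨y, hy⟩ := Ideal.mem_span_singleton'.1 this
    exact ⟨y, by rw [← hy, mul_comm]⟩
  choose w hw using h1
  have hw' : (R g - 1).mulVec (b j) = x • w := funext fun k => by
    rw [hw k, Pi.smul_apply, smul_eq_mul]
  have hdiff : (R g - 1).mulVec (b j) = ∑ i, (M0 g - 1) i j • b i := by
    rw [Matrix.sub_mulVec, Matrix.one_mulVec, hM0 g j]
    simp only [Matrix.sub_apply, sub_smul, Finset.sum_sub_distrib]
    congr 1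
    simp [Matrix.one_apply, ite_smul]
  show (M0 g - 1) i j ∈ Submodule.span O {x}
  by_cases hx : x = 0
  · subst hx
    rw [zero_smul] at hw'
    have := huniq (fun i => (M0 g - 1) i j) (fun _ => 0) (by rw [← hdiff, hw']; simp)
    rw [congrFun this i]
    exact Submodule.zero_mem _
  · have hwU : io O L d w ∈ U := by
      have h2 : io O L d (x • w) ∈ U := by
        rw [← hw', hdiff, map_sum]
        refine U.sum_mem fun i _ => ?_
        rw [map_smul, ← algebraMap_smul L]
        exact U.smul_mem _ (hbU i)
      rw [map_smul, ← algebraMap_smul L] at h2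
      have hx0 : algebraMap O L x ≠ 0 :=
        (map_ne_zero_iff (algebraMap O L) (IsFractionRing.injective O L)).2 hx
      have := U.smul_mem (algebraMap O L x)⁻¹ h2
      rwa [smul_smul, inv_mul_cancel₀ hx0, one_smul] at this
    obtain ⟨c, hc⟩ := hrep w hwU
    have := huniq (fun i => (M0 g - 1) i j) (fun i => x * c i) (by
      rw [← hdiff, hw', hc, Finset.smul_sum]
      simp only [smul_smul])
    rw [congrFun this i]
    exact Ideal.mem_span_singleton'.2 ⟨c i, mul_comm _ _⟩

end Fermat.Agent.S30
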