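import Fermat.Agent.S30.Odd
import Fermat.Agent.S30.Lattice

/-!
# S30/MAT2 : extraction of a 2-dimensional integral representation (pure algebra)

`O` a PID of characteristic `0`, `L = FractionRing O`.  `E_L` = the `L`-span of `E` in `L ^ d`: stable
under `linRep L R`, nonzero, and every `g` satisfies `QRel (g) (t g) (χc g)` on it.
`exists_irr_le` gives an irreducible `U ≤ E_L`; `finrank_le_two_odd` gives `dim U ≤ 2`.
* `dim U = 2`: `M` from `exists_integral_rep`; `(M g).charpoly` maps to the characteristic polynomial
  of `g` on `U` (`Matrix.charpoly_map`, `LinearMap.charpoly_toMatrix`), which is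
  `X² - t X + χc g` by `ExtractAux.charpoly_of_det` and `ExtractAux.det_eq_chi`.
* `dim U = 1`: `exists_integral_rep` gives `ψ : G →* O` (1 × 1 matrices);
  `M g = diag(ψ g, χc g * ψ g⁻¹)`; `ψ² - t ψ + χc = 0` gives the characteristic polynomial
  (as in the one-dimensional case of `Fermat.Agent.ES.extract`).
-/

set_option autoImplicit false

open Polynomial

namespace Fermat.Agent.S30

open Fermat.Agent.ES.ExtractAux

namespace Mat2Aux

set_option linter.unusedSectionVars false

variable {O : Type} [CommRing O] [IsDomain O] [IsPrincipalIdealRing O] {G : Type} [Group G] {d : ℕ}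

/-- coefficientwise embedding `O ^ d → L ^ d` -/
noncomputable def iota (O : Type) [CommRing O] (d : ℕ) :
    (Fin d → O) →ₗ[O] (Fin d → FractionRing O) :=
  (Algebra.linearMap O (FractionRing O)).compLeft (Fin d)

theorem iota_apply (v : Fin d → O) (k : Fin d) :
    iota O d v k = algebraMap O (FractionRing O) (v k) := rfl

theorem iota_injective : Function.Injective (iota O d) := by
  intro v w h
  ext k
  exact IsFractionRing.injective O (FractionRing O) (congrFun h k)

theorem linRep_iota (R : G →* Mat d O) (g : G) (v : Fin d → O) :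
    linRep (FractionRing O) R g (iota O d v) = iota O d ((R g).mulVec v) := by
  rw [linRep_apply]
  ext i
  exact (RingHom.map_mulVec (algebraMap O (FractionRing O)) (R g) v i).symm

/-- the `L`-span of `E` -/
noncomputable def spanL (E : Submodule O (Fin d → O)) :
    Submodule (FractionRing O) (Fin d → FractionRing O) :=
  Submodule.span (FractionRing O) (iota O d '' (E : Set (Fin d → O)))

theorem spanL_ne_bot (E : Submodule O (Fin d → O)) (hE0 : E ≠ ⊥) : spanL E ≠ ⊥ := by
  obtain ⟨v, hv, hv0⟩ := Submodule.exists_mem_ne_zero_of_ne_bot hE0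
  intro h
  have h1 : iota O d v ∈ spanL E := Submodule.subset_span ⟨v, hv, rfl⟩
  rw [h, Submodule.mem_bot] at h1
  exact hv0 (iota_injective (by rw [h1, map_zero]))

theorem spanL_stable (R : G →* Mat d O) (E : Submodule O (Fin d → O))
    (hE : ∀ g, ∀ v ∈ E, (R g).mulVec v ∈ E) (g : G) (x : Fin d → FractionRing O)
    (hx : x ∈ spanL E) : linRep (FractionRing O) R g x ∈ spanL E := by
  unfold spanL at hx ⊢
  induction hx using Submodule.span_induction with
  | mem y hy =>
    obtain ⟨v, hv, rfl⟩ := hy
    rw [linRep_iota]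
    exact Submodule.subset_span ⟨_, hE g v hv, rfl⟩
  | zero => simp
  | add y z _ _ hy hz => rw [map_add]; exact Submodule.add_mem _ hy hz
  | smul a y _ hy => rw [map_smul]; exact Submodule.smul_mem _ _ hy

theorem spanL_rel (R : G →* Mat d O) (E : Submodule O (Fin d → O)) (g : G) (t c : O)
    (h : ∀ v ∈ E, (R g * R g).mulVec v - t • (R g).mulVec v + c • v = 0)
    (x : Fin d → FractionRing O) (hx : x ∈ spanL E) :
    linRep (FractionRing O) R g (linRep (FractionRing O) R g x)
      - algebraMap O (FractionRing O) t • linRep (FractionRing O) R g x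
      + algebraMap O (FractionRing O) c • x = 0 := by
  unfold spanL at hx
  induction hx using Submodule.span_induction with
  | mem y hy =>
    obtain ⟨v, hv, rfl⟩ := hy
    rw [linRep_iota, linRep_iota, algebraMap_smul, algebraMap_smul, ← map_smul, ← map_smul,
      ← map_sub, ← map_add, Matrix.mulVec_mulVec, h v hv, map_zero]
  | zero => simp
  | add y z _ _ hy hz =>
    calc _ = (linRep (FractionRing O) R g (linRep (FractionRing O) R g y)
          - algebraMap O (FractionRing O) t • linRep (FractionRing O) R g y
          + algebraMap O (FractionRing O) c • y)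
        + (linRep (FractionRing O) R g (linRep (FractionRing O) R g z)
          - algebraMap O (FractionRing O) t • linRep (FractionRing O) R g z
          + algebraMap O (FractionRing O) c • z) := by
          simp only [map_add, smul_add]; abel
      _ = 0 := by rw [hy, hz, add_zero]
  | smul a y _ hy =>
    simp only [map_smul]
    rw [smul_comm _ a, smul_comm _ a, ← smul_sub, ← smul_add, hy, smul_zero]

end Mat2Aux

open Mat2Aux in
theorem exists_mat2 {O : Type} [CommRing O] [IsDomain O] [IsPrincipalIdealRing O] [CharZero O]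
    {G : Type} [Group G] {d : ℕ} (R : G →* Mat d O) (χc : G →* Oˣ)
    (E : Submodule O (Fin d → O)) (hE0 : E ≠ ⊥) (hE : ∀ g, ∀ v ∈ E, (R g).mulVec v ∈ E)
    (hq : ∀ g, ∃ t : O, ∀ v ∈ E,
      (R g * R g).mulVec v - t • (R g).mulVec v + ((χc g : Oˣ) : O) • v = 0)
    (c : G) (hc : c * c = 1) (hχc : ((χc c : Oˣ) : O) = -1) :
    ∃ M : G →* Mat 2 O,
      (∀ (I : Ideal O) (g : G), MMem I (R g - 1) → ((χc g : Oˣ) : O) - 1 ∈ I → MMem I (M g - 1)) ∧
      (∀ (g : G) (t : O),
        (∀ v ∈ E, (R g * R g).mulVec v - t • (R g).mulVec v + ((χc g : Oˣ) : O) • v = 0) →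
          (M g).charpoly = X ^ 2 - C t * X + C ((χc g : Oˣ) : O)) := by
  classical
  set L := FractionRing O with hL
  have hinj : Function.Injective (algebraMap O L) := IsFractionRing.injective O L
  have : CharZero L := charZero_of_injective_algebraMap hinj
  set ρ := linRep L R with hρ
  obtain ⟨U, hU, hUE, hirr⟩ := exists_irr_le ρ (spanL E) (spanL_stable R E hE) (spanL_ne_bot E hE0)
  set ρU := resRep ρ U hU with hρU
  let χL : G →* Lˣ := (Units.map (algebraMap O L : O →* L)).comp χc
  have hχL : ∀ g, ((χL g : Lˣ) : L) = algebraMap O L ((χc g : Oˣ) : O) := fun g => rfl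
  -- the relation on `U`
  have hrelU : ∀ (g : G) (t : O),
      (∀ v ∈ E, (R g * R g).mulVec v - t • (R g).mulVec v + ((χc g : Oˣ) : O) • v = 0) →
      QRel (ρU g) (algebraMap O L t) (χL g : L) := by
    intro g t ht
    unfold QRel
    ext x
    have := spanL_rel R E g t _ ht (x : Fin d → L) (hUE x.2)
    simpa [hρU, hχL] using congrFun this _
  choose tO htO using hq
  have hrel : ∀ g, QRel (ρU g) (algebraMap O L (tO g)) (χL g : L) := fun g => hrelU g _ (htO g)
  have hle := finrank_le_two_odd (two_ne_zero) ρU χL (fun g => algebraMap O L (tO g)) hrel hirr c hc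
    (by rw [hχL, hχc, map_neg, map_one])
  have hnt : Nontrivial U := hirr.1
  have hpos : 0 < Module.finrank L U := Module.finrank_pos
  have hne0 : ∀ g, ρU g ≠ 0 := by
    intro g h0
    have h1 : ρU g * ρU g⁻¹ = 1 := by rw [← map_mul, mul_inv_cancel, map_one]
    rw [h0, zero_mul] at h1
    exact zero_ne_one h1
  rcases (by omega : Module.finrank L U = 2 ∨ Module.finrank L U = 1) with h2 | h1
  · obtain ⟨M, B, hMB, hMI⟩ := exists_integral_rep (L := L) R U hU 2 h2
    refine ⟨M, fun I g hI _ => hMI I g hI, ?_⟩
    intro g t ht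
    apply Polynomial.map_injective (algebraMap O L) hinj
    rw [← Matrix.charpoly_map, ← hMB g, LinearMap.charpoly_toMatrix]
    rw [charpoly_of_det h2 (ρU g) (hne0 g)
      (det_eq_chi h2 ρU χL (fun g => algebraMap O L (tO g)) hrel hirr g) (hrelU g t ht)]
    simp [hχL]
  · obtain ⟨M₁, B, hMB, hMI⟩ := exists_integral_rep (L := L) R U hU 1 h1
    let ψ : G → O := fun g => M₁ g 0 0
    have hψmul : ∀ g h, ψ (g * h) = ψ g * ψ h := by
      intro g h
      simp only [ψ, map_mul, Matrix.mul_apply, Fin.sum_univ_one, Fin.isValue]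
    have hψone : ψ 1 = 1 := by simp [ψ]
    have hψinv : ∀ g, ψ g * ψ g⁻¹ = 1 := by
      intro g
      rw [← hψmul, mul_inv_cancel, hψone]
    have hψrel : ∀ (g : G) (t : O),
        (∀ v ∈ E, (R g * R g).mulVec v - t • (R g).mulVec v + ((χc g : Oˣ) : O) • v = 0) →
        ψ g * ψ g - t * ψ g + ((χc g : Oˣ) : O) = 0 := by
      intro g t ht
      have h3 := hrelU g t ht
      unfold QRel at h3
      have hMB' : LinearMap.toMatrixAlgEquiv B (ρU g) = (M₁ g).map (algebraMap O L) := hMB g
      have h3' : ρU g * ρU g + (χL g : L) • (1 : Module.End L U) = algebraMap O L t • ρU g := by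
        rw [← sub_eq_zero, ← h3]; abel
      have h4 := congrArg (LinearMap.toMatrixAlgEquiv B) h3'
      rw [map_add, map_mul, map_smul, map_smul, map_one, hMB'] at h4
      have h5 := congrFun (congrFun h4 0) 0
      simp only [Matrix.add_apply, Matrix.mul_apply, Fin.sum_univ_one,
        Matrix.smul_apply, Matrix.map_apply, Matrix.one_apply_eq, smul_eq_mul,
        mul_one, hχL, Fin.isValue] at h5
      apply hinj
      rw [map_add, map_sub, map_mul, map_mul, map_zero]
      linear_combination h5
    let M : G →* Mat 2 O :=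
      { toFun := fun g => Matrix.diagonal ![ψ g, ((χc g : Oˣ) : O) * ψ g⁻¹]
        map_one' := by
          ext i j
          fin_cases i <;> fin_cases j <;> simp [hψone]
        map_mul' := fun g₁ g₂ => by
          rw [Matrix.diagonal_mul_diagonal]
          congr 1
          ext i
          fin_cases i
          · simp [hψmul]
          · simp only [map_mul, mul_inv_rev, Units.val_mul, hψmul]
            simp
            ring }
    have hM : ∀ g, M g = Matrix.diagonal ![ψ g, ((χc g : Oˣ) : O) * ψ g⁻¹] := fun g => rfl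
    refine ⟨M, ?_, ?_⟩
    · intro I g hI hχ
      have h3 : ψ g - 1 ∈ I := by
        have := hMI I g hI 0 0
        simpa [ψ] using this
      have h4 : ((χc g : Oˣ) : O) * ψ g⁻¹ - 1 ∈ I := by
        have e : ((χc g : Oˣ) : O) * ψ g⁻¹ - 1
            = (((χc g : Oˣ) : O) - 1) - ((χc g : Oˣ) : O) * ψ g⁻¹ * (ψ g - 1) := by
          linear_combination (((χc g : Oˣ) : O)) * hψinv g
        rw [e]
        exact I.sub_mem hχ (I.mul_mem_left _ h3)
      intro i j
      rw [hM]
      fin_cases i <;> fin_cases j
      · simpa using h3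
      · simp
      · simp
      · simpa using h4
    · intro g t ht
      have h3 := hψrel g t ht
      rw [Matrix.charpoly_fin_two, hM]
      have htr : (Matrix.diagonal ![ψ g, ((χc g : Oˣ) : O) * ψ g⁻¹]).trace = t := by
        rw [Matrix.trace_fin_two]
        simp
        linear_combination ψ g⁻¹ * h3 + (t - ψ g) * hψinv g
      have hdet : (Matrix.diagonal ![ψ g, ((χc g : Oˣ) : O) * ψ g⁻¹]).det = ((χc g : Oˣ) : O) := by
        rw [Matrix.det_fin_two]
        simp
        linear_combination ((χc g : Oˣ) : O) * hψinv g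
      rw [htr, hdet]

end Fermat.Agent.S30
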