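import Fermat.Agent.S30.Lim
import Fermat.Agent.S31.Main

/-!
# S30/QUAD : every `g ∈ G_ℚ` kills a quadratic `X² - t X + χ_cyc(g)` on the eigenvectors

Fix `g`.  For every `n` let `L_n` be the compositum of the level fields of `D.R` and `Cy.χ` modulo
`𝔪 ^ n`.  `Fermat.Agent.S31.exists_frob S L_n _ g` gives `ℓ ∉ S`, a Frobenius lift `τ` and `b` with
`g = τ ^ b` on `L_n`; so `D.R g ≡ x ^ b` (`x = D.R τ`) and `Cy.χ g ≡ ℓ ^ b` modulo `𝔪 ^ n`.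
With `s = a(T_ℓ)`, `y = s - x`: `x y = ℓ`, `x, y` commute (`D.comm`, `D.es1`), so
`x ^ b + y ^ b = dk s ℓ b = a (dk T_ℓ ℓ b)` (`S31.dk_add_mul`, `S31.map_dk`), `x ^ b y ^ b = ℓ ^ b`.
For an eigenvector `v`: `x^b x^b v - t_n x^b v + ℓ^b v = 0` with `t_n = χ (dk T_ℓ ℓ b)`.  Hence
`(R g)² v - t_n R g v + χ_cyc(g) v ∈ 𝔪 ^ n` for all eigenvectors `v`.
If there is no nonzero eigenvector take `t = 0`.  Otherwise fix `v₀ ≠ 0`, `v₀ i = u ϖ ^ j`: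
`(t_n - t_n') v₀ ∈ 𝔪 ^ min(n,n')` (multiply by `R g⁻¹`), so `t_{n+j}` is Cauchy; `t` = its limit
(`IsPrecomplete`), and the relation holds modulo `𝔪 ^ n` for all `n`, hence exactly.
-/

set_option autoImplicit false
set_option linter.unusedSectionVars false

namespace Fermat.Agent.S30

open IsLocalRing

namespace QuadAux

open LimAux

variable {R : Type*} [CommRing R] {d : ℕ}

theorem mulVec_mem {I : Ideal R} {M : Mat d R} (h : MMem I M) (v : Fin d → R) (i : Fin d) :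
    M.mulVec v i ∈ I := by
  rw [Matrix.mulVec, dotProduct]
  exact I.sum_mem fun k _ => I.mul_mem_right _ (h i k)

/-- the quadratic expression -/
def qe (t : R) (Y : Mat d R) (c : R) (v : Fin d → R) : Fin d → R :=
  (Y * Y).mulVec v - t • Y.mulVec v + c • v

theorem qe_sub_mem {I : Ideal R} (t : R) {X Y : Mat d R} (h : MMem I (Y - X)) {c c' : R}
    (hc : c - c' ∈ I) (v : Fin d → R) (i : Fin d) : qe t Y c v i - qe t X c' v i ∈ I := by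
  have h2 : MMem I (Y * Y - X * X) := Cg.mul (I := I) h h
  have e : qe t Y c v i - qe t X c' v i
      = (Y * Y - X * X).mulVec v i - t * (Y - X).mulVec v i + (c - c') * v i := by
    simp only [qe, Matrix.sub_mulVec, Pi.add_apply, Pi.sub_apply, Pi.smul_apply, smul_eq_mul]
    ring
  rw [e]
  exact I.add_mem (I.sub_mem (mulVec_mem h2 v i) (I.mul_mem_left _ (mulVec_mem h v i)))
    (I.mul_mem_right _ hc)

theorem qe_sub_qe (t t' : R) (Y : Mat d R) (c : R) (v : Fin d → R) (i : Fin d) :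
    qe t Y c v i - qe t' Y c v i = (t' - t) * Y.mulVec v i := by
  simp only [qe, Pi.add_apply, Pi.sub_apply, Pi.smul_apply, smul_eq_mul]
  ring

theorem dvr_cancel {𝒪 : Type*} [CommRing 𝒪] [IsDomain 𝒪] [IsDiscreteValuationRing 𝒪]
    {b : 𝒪} (hb : b ≠ 0) : ∃ j : ℕ, ∀ (a : 𝒪) (n : ℕ), a * b ∈ maximalIdeal 𝒪 ^ (n + j) →
      a ∈ maximalIdeal 𝒪 ^ n := by
  obtain ⟨ϖ, hϖ⟩ := IsDiscreteValuationRing.exists_irreducible 𝒪
  obtain ⟨j, u, hu⟩ := IsDiscreteValuationRing.eq_unit_mul_pow_irreducible hb hϖ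
  refine ⟨j, fun a n h => ?_⟩
  rw [hϖ.maximalIdeal_eq, Ideal.span_singleton_pow, Ideal.mem_span_singleton] at h ⊢
  rw [hu, pow_add, ← mul_assoc] at h
  have h1 := (mul_dvd_mul_iff_right (pow_ne_zero j hϖ.ne_zero)).mp h
  exact (Units.dvd_mul_right).mp h1

end QuadAux

open QuadAux LimAux

section

variable {p N : ℕ} [NeZero N] (S : Finset ℕ)
    {𝒪 : Type} [CommRing 𝒪] [IsDomain 𝒪] [IsDiscreteValuationRing 𝒪]
    [IsAdicComplete (maximalIdeal 𝒪) 𝒪]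

/-- the approximate relation -/
theorem exists_quad_mod (hpS : p ∈ S)
    (hNS : ∀ q : ℕ, q.Prime → q ∣ N → q ∈ S)
    (D : AdicData N (↑S : Set ℕ) p 𝒪) (Cy : CycData p 𝒪)
    (χ : CuspForm.heckeAlgebra N 2 (↑S : Set ℕ) →+* 𝒪) (g : GQ) (n : ℕ) :
    ∃ t : 𝒪, ∀ v ∈ eigenO D χ, ∀ i,
      qe t (D.R g) ((Cy.χ g : 𝒪ˣ) : 𝒪) v i ∈ maximalIdeal 𝒪 ^ n := by
  obtain ⟨L₁, hL₁f, hL₁⟩ := D.cont n
  obtain ⟨L₂, hL₂f, hL₂⟩ := Cy.cont n
  have hLf : FiniteDimensional ℚ (L₁ ⊔ L₂ : IntermediateField ℚ Qb) :=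
    IntermediateField.finiteDimensional_sup L₁ L₂
  obtain ⟨ℓ, A, τ, b, hℓ, hℓS, hA, hτ, hgτ⟩ := Fermat.Agent.S31.exists_frob S (L₁ ⊔ L₂) hLf g
  have hℓN : ¬ ℓ ∣ N := fun h => hℓS (hNS ℓ hℓ h)
  have hℓp : ℓ ≠ p := fun h => hℓS (h ▸ hpS)
  have hℓS' : ℓ ∉ (↑S : Set ℕ) := by simpa using hℓS
  set a' : CuspForm.heckeAlgebra N 2 (↑S : Set ℕ) →+* Mat D.d 𝒪 :=
    ((Int.castRingHom 𝒪).mapMatrix).comp D.a with ha'
  have ha'ap : ∀ y, a' y = (D.a y).map (Int.castRingHom 𝒪) := fun y => rfl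
  set x := D.R τ with hx
  set x' := D.R τ⁻¹ with hx'
  have hxx' : x * x' = 1 := by rw [hx, hx', ← map_mul, mul_inv_cancel, map_one]
  have hx'x : x' * x = 1 := by rw [hx, hx', ← map_mul, inv_mul_cancel, map_one]
  set T := CuspForm.heckeAlgebra.T hℓ hℓN hℓS' with hT
  have hes : x * x - a' T * x + (ℓ : Mat D.d 𝒪) = 0 := D.es1 ℓ hℓ hℓN hℓS' hℓp A hA τ hτ
  have hdk := Fermat.Agent.S31.map_dk_of_quad a' T ℓ x x' hxx' hx'x hes b
  set y := Fermat.Agent.S31.dk T (ℓ : CuspForm.heckeAlgebra N 2 (↑S : Set ℕ)) b with hy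
  set X := x ^ b with hX
  have hXR : X = D.R (τ ^ b) := by rw [hX, hx, map_pow]
  have hx'X : x' ^ b * X = 1 := by
    rw [hX, ← (show Commute x' x from by rw [Commute, SemiconjBy, hx'x, hxx']).mul_pow, hx'x,
      one_pow]
  have hrelX : X * X - a' y * X + ((ℓ ^ b : ℕ) : Mat D.d 𝒪) = 0 := by
    rw [hdk, add_mul, mul_assoc, hx'X, mul_one]
    abel
  refine ⟨χ y, fun v hv i => ?_⟩
  -- exact relation for `X`
  have hcomm : X * a' y = a' y * X := by rw [hXR, ha'ap]; exact D.comm _ _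
  have h0 : qe (χ y) X ((ℓ ^ b : ℕ) : 𝒪) v = 0 := by
    have h1 : (a' y * X).mulVec v = χ y • X.mulVec v := by
      rw [← hcomm, ← Matrix.mulVec_mulVec, ha'ap, (mem_eigenO D χ v).mp hv y, Matrix.mulVec_smul]
    have h2 := congrArg (fun M : Mat D.d 𝒪 => M.mulVec v) hrelX
    simp only [Matrix.add_mulVec, Matrix.sub_mulVec, Matrix.zero_mulVec, h1] at h2
    unfold qe
    rw [← h2]
    congr 1
    ext k
    rw [← Matrix.diagonal_natCast' , Matrix.mulVec_diagonal]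
    simp
  -- comparison
  set σ := (τ ^ b)⁻¹ * g with hσ
  have hσfix : ∀ z ∈ (L₁ ⊔ L₂ : IntermediateField ℚ Qb), σ z = z := by
    intro z hz
    rw [hσ, AlgEquiv.mul_apply, hgτ z hz]
    exact AlgEquiv.symm_apply_apply (τ ^ b) z
  have hgσ : g = τ ^ b * σ := by rw [hσ, mul_inv_cancel_left]
  have hR : MMem (maximalIdeal 𝒪 ^ n) (D.R g - X) := by
    have h1 := hL₁ σ (fun z hz => hσfix z ((le_sup_left : L₁ ≤ L₁ ⊔ L₂) hz))
    have e : D.R g - X = X * (D.R σ - 1) := by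
      rw [hgσ, map_mul, ← hXR, mul_sub, mul_one]
    rw [e]
    exact MMem.mul_left X h1
  have hc : ((Cy.χ g : 𝒪ˣ) : 𝒪) - ((ℓ ^ b : ℕ) : 𝒪) ∈ maximalIdeal 𝒪 ^ n := by
    have h1 := hL₂ σ (fun z hz => hσfix z ((le_sup_right : L₂ ≤ L₁ ⊔ L₂) hz))
    have e : ((Cy.χ g : 𝒪ˣ) : 𝒪) - ((ℓ ^ b : ℕ) : 𝒪)
        = ((ℓ ^ b : ℕ) : 𝒪) * (((Cy.χ σ : 𝒪ˣ) : 𝒪) - 1) := by
      rw [hgσ, map_mul, map_pow, Units.val_mul, Units.val_pow_eq_pow_val,
        Cy.frob ℓ hℓ hℓp A hA τ hτ]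
      push_cast
      ring
    rw [e]
    exact Ideal.mul_mem_left _ _ h1
  have := qe_sub_mem (χ y) hR hc v i
  rwa [h0, Pi.zero_apply, sub_zero] at this

end

theorem exists_quad {p N : ℕ} [NeZero N] (S : Finset ℕ) (hpS : p ∈ S)
    (hNS : ∀ q : ℕ, q.Prime → q ∣ N → q ∈ S)
    {𝒪 : Type} [CommRing 𝒪] [IsDomain 𝒪] [IsDiscreteValuationRing 𝒪]
    [IsAdicComplete (maximalIdeal 𝒪) 𝒪]
    (D : AdicData N (↑S : Set ℕ) p 𝒪) (Cy : CycData p 𝒪)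
    (χ : CuspForm.heckeAlgebra N 2 (↑S : Set ℕ) →+* 𝒪) (g : GQ) :
    ∃ t : 𝒪, ∀ v ∈ eigenO D χ,
      (D.R g * D.R g).mulVec v - t • (D.R g).mulVec v + ((Cy.χ g : 𝒪ˣ) : 𝒪) • v = 0 := by
  by_cases hE : ∀ v ∈ eigenO D χ, v = 0
  · refine ⟨0, fun v hv => ?_⟩
    rw [hE v hv]
    simp
  push Not at hE
  obtain ⟨v₀, hv₀, hv₀0⟩ := hE
  choose t ht using exists_quad_mod S hpS hNS D Cy χ g
  -- `w₀ = R g v₀ ≠ 0`
  have hw₀ : (D.R g).mulVec v₀ ≠ 0 := by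
    intro h
    apply hv₀0
    have h1 : (D.R g⁻¹ * D.R g).mulVec v₀ = 0 := by
      rw [← Matrix.mulVec_mulVec, h, Matrix.mulVec_zero]
    rwa [← map_mul, inv_mul_cancel, map_one, Matrix.one_mulVec] at h1
  obtain ⟨i, hi⟩ : ∃ i, (D.R g).mulVec v₀ i ≠ 0 := by
    by_contra hcon
    push Not at hcon
    exact hw₀ (funext hcon)
  obtain ⟨j, hj⟩ := dvr_cancel hi
  have hcauchy : ∀ m n : ℕ, m ≤ n → t (m + j) - t (n + j) ∈ maximalIdeal 𝒪 ^ m := by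
    intro m n hmn
    apply hj
    rw [← qe_sub_qe]
    refine Ideal.sub_mem _ ?_ (ht (m + j) v₀ hv₀ i)
    exact Ideal.pow_le_pow_right (by omega) (ht (n + j) v₀ hv₀ i)
  obtain ⟨l, hl⟩ := IsPrecomplete.prec (I := maximalIdeal 𝒪) inferInstance
    (f := fun m => t (m + j)) (by
      intro m n hmn
      rw [SModEq.sub_mem, smul_eq_mul, Ideal.mul_top]
      exact hcauchy m n hmn)
  refine ⟨l, fun v hv => ?_⟩
  ext k
  refine eq_zero_of_forall_mem _ fun n => ?_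
  have h1 := hl n
  rw [SModEq.sub_mem, smul_eq_mul, Ideal.mul_top] at h1
  have h2 : qe l (D.R g) ((Cy.χ g : 𝒪ˣ) : 𝒪) v k - qe (t (n + j)) (D.R g) ((Cy.χ g : 𝒪ˣ) : 𝒪) v k
      ∈ maximalIdeal 𝒪 ^ n := by
    rw [qe_sub_qe]
    exact Ideal.mul_mem_right _ _ h1
  have h3 : qe (t (n + j)) (D.R g) ((Cy.χ g : 𝒪ˣ) : 𝒪) v k ∈ maximalIdeal 𝒪 ^ n :=
    Ideal.pow_le_pow_right (by omega) (ht (n + j) v hv k)
  have := Ideal.add_mem _ h2 h3
  rwa [sub_add_cancel] at this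

end Fermat.Agent.S30
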