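import Fermat.Agent.S30.Cyc
import Fermat.Agent.S30.Eigen
import Fermat.Agent.S30.Quad
import Fermat.Agent.S30.Mat2

/-!
# S30/MAIN : assembly
-/

set_option autoImplicit false

open Polynomial

namespace Fermat.Agent.S30

open IsLocalRing

/-- a vector with coordinates in `I` lies in `I • ⊤` -/
theorem mem_smul_top_of_coords {R : Type*} [CommRing R] (I : Ideal R) {n : ℕ} (w : Fin n → R)
    (hw : ∀ i, w i ∈ I) : w ∈ I • (⊤ : Submodule R (Fin n → R)) := by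
  have h : w = ∑ i, w i • (Pi.single i (1 : R) : Fin n → R) := by
    ext j
    simp [Finset.sum_apply, Pi.single_apply]
  rw [h]
  exact Submodule.sum_mem _ fun i _ => Submodule.smul_mem_smul (hw i) Submodule.mem_top

/-- the adic representation given by a continuous matrix representation -/
noncomputable def mkRep {𝒪 : Type} [CommRing 𝒪] [IsLocalRing 𝒪] (M : GQ →* Mat 2 𝒪)
    (hM : ∀ n : ℕ, ∃ L : IntermediateField ℚ Qb, FiniteDimensional ℚ L ∧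
      ∀ σ : GQ, (∀ x ∈ L, σ x = x) → MMem (maximalIdeal 𝒪 ^ n) (M σ - 1)) : GaloisRepAdic 𝒪 where
  V := Fin 2 → 𝒪
  finrank_eq := by simp
  ρ := ((Matrix.toLinAlgEquiv' : Mat 2 𝒪 ≃ₐ[𝒪] Module.End 𝒪 (Fin 2 → 𝒪)) : Mat 2 𝒪 →* _).comp M
  isAdicContinuous := by
    intro n
    obtain ⟨L, hL, h⟩ := hM n
    refine ⟨L, hL, fun σ hσ v => ?_⟩
    have h1 := h σ hσ
    change (M σ).mulVec v - v ∈ _
    have h2 : (M σ).mulVec v - v = (M σ - 1).mulVec v := by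
      rw [Matrix.sub_mulVec, Matrix.one_mulVec]
    rw [h2]
    apply mem_smul_top_of_coords
    intro i
    rw [Matrix.mulVec, dotProduct]
    exact Ideal.sum_mem _ fun j _ => Ideal.mul_mem_right _ _ (h1 i j)

theorem mkRep_ρ {𝒪 : Type} [CommRing 𝒪] [IsLocalRing 𝒪] (M : GQ →* Mat 2 𝒪)
    (hM : ∀ n : ℕ, ∃ L : IntermediateField ℚ Qb, FiniteDimensional ℚ L ∧
      ∀ σ : GQ, (∀ x ∈ L, σ x = x) → MMem (maximalIdeal 𝒪 ^ n) (M σ - 1)) (σ : GQ) :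
    (mkRep M hM).ρ σ = Matrix.toLin' (M σ) := rfl

/-- S30 from a tower (with `𝒪'' = 𝒪'`) -/
theorem exists_rep (p : ℕ) [Fact p.Prime] (N : ℕ) [NeZero N] (S : Finset ℕ)
    (hpS : p ∈ S) (hNS : ∀ q : ℕ, q.Prime → q ∣ N → q ∈ S)
    (𝒯 : MatTower N (↑S : Set ℕ) p)
    (𝒪 : Type) [CommRing 𝒪] [IsDomain 𝒪] [IsDiscreteValuationRing 𝒪]
    [IsAdicComplete (maximalIdeal 𝒪) 𝒪] [CharZero 𝒪] (hp𝒪 : (p : 𝒪) ∈ maximalIdeal 𝒪)
    (χ : CuspForm.heckeAlgebra N 2 (↑S : Set ℕ) →+* 𝒪) :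
    ∃ ρ : GaloisRepAdic 𝒪,
      (∀ (ℓ : ℕ) (hℓ : ℓ.Prime) (hℓN : ¬ ℓ ∣ N) (hℓS : ℓ ∉ (↑S : Set ℕ)),
        ∀ A : ValuationSubring (AlgebraicClosure ℚ), A.LiesOverPrime ℓ →
          ∀ σ : AlgebraicClosure ℚ ≃ₐ[ℚ] AlgebraicClosure ℚ, A.IsFrobeniusAt σ ℓ →
            LinearMap.charpoly (ρ.ρ σ) =
              X ^ 2 - C (χ (CuspForm.heckeAlgebra.T hℓ hℓN hℓS)) * X + C ((ℓ : 𝒪))) ∧
      (∀ q : ℕ, q.Prime → ¬ q ∣ N → q ≠ p → ρ.IsUnramifiedAt q) := by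
  obtain ⟨D⟩ := exists_adic (𝒪 := 𝒪) 𝒯 hp𝒪
  obtain ⟨Cy⟩ := exists_cycData (Fact.out : p.Prime) 𝒪 hp𝒪
  -- the eigenlattice is nonzero
  have hE0 : eigenO D χ ≠ ⊥ := by
    have : CharZero (FractionRing 𝒪) :=
      charZero_of_injective_algebraMap (IsFractionRing.injective 𝒪 (FractionRing 𝒪))
    obtain ⟨v, hv0, hv⟩ := exists_eigenvector D.a D.a_inj
      ((algebraMap 𝒪 (FractionRing 𝒪)).comp χ)
    obtain ⟨b, hb⟩ := IsLocalization.exist_integer_multiples_of_finite (nonZeroDivisors 𝒪) v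
    choose w hw using hb
    have hb0 : (b : 𝒪) ≠ 0 := nonZeroDivisors.ne_zero b.2
    have hinj := IsFractionRing.injective 𝒪 (FractionRing 𝒪)
    have hwv : (fun i => algebraMap 𝒪 (FractionRing 𝒪) (w i)) = (b : 𝒪) • v := by
      funext i
      exact hw i
    intro hbot
    have hmem : w ∈ eigenO D χ := by
      rw [mem_eigenO]
      intro x
      funext i
      apply hinj
      have h1 : algebraMap 𝒪 (FractionRing 𝒪) ((((D.a x).map (Int.castRingHom 𝒪)).mulVec w) i) =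
          (((D.a x).map (Int.castRingHom (FractionRing 𝒪))).mulVec
            (fun i => algebraMap 𝒪 (FractionRing 𝒪) (w i))) i := by
        simp only [Matrix.mulVec, dotProduct, map_sum, map_mul, Matrix.map_apply]
        simp
      rw [h1, hwv, Matrix.mulVec_smul, hv x]
      change (b : 𝒪) • ((algebraMap 𝒪 (FractionRing 𝒪) (χ x)) * v i) =
        algebraMap 𝒪 (FractionRing 𝒪) (χ x * w i)
      rw [map_mul, hw i, Algebra.smul_def, Algebra.smul_def]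
      ring
    rw [hbot, Submodule.mem_bot] at hmem
    apply hv0
    funext i
    have h2 := hw i
    rw [hmem, Pi.zero_apply, map_zero, Algebra.smul_def] at h2
    rcases mul_eq_zero.mp h2.symm with h3 | h3
    · exact absurd ((map_eq_zero_iff _ hinj).mp h3) hb0
    · exact h3
  have hE : ∀ g, ∀ v ∈ eigenO D χ, (D.R g).mulVec v ∈ eigenO D χ := by
    intro g v hv
    rw [mem_eigenO] at hv ⊢
    intro x
    rw [Matrix.mulVec_mulVec, ← D.comm g x, ← Matrix.mulVec_mulVec, hv x, Matrix.mulVec_smul]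
  obtain ⟨M, hM1, hM2⟩ := exists_mat2 D.R Cy.χ (eigenO D χ) hE0 hE
    (fun g => exists_quad S hpS hNS D Cy χ g) Cy.c Cy.c_sq Cy.χ_c
  have hcont : ∀ n : ℕ, ∃ L : IntermediateField ℚ Qb, FiniteDimensional ℚ L ∧
      ∀ σ : GQ, (∀ x ∈ L, σ x = x) → MMem (maximalIdeal 𝒪 ^ n) (M σ - 1) := by
    intro n
    obtain ⟨L₁, hL₁, h1⟩ := D.cont n
    obtain ⟨L₂, hL₂, h2⟩ := Cy.cont n
    refine ⟨L₁ ⊔ L₂, IntermediateField.finiteDimensional_sup L₁ L₂, fun σ hσ => ?_⟩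
    exact hM1 _ σ (h1 σ fun x hx => hσ x ((le_sup_left : L₁ ≤ L₁ ⊔ L₂) hx))
      (h2 σ fun x hx => hσ x ((le_sup_right : L₂ ≤ L₁ ⊔ L₂) hx))
  refine ⟨mkRep M hcont, ?_, ?_⟩
  · intro ℓ hℓ hℓN hℓS A hA σ hσ
    have hℓp : ℓ ≠ p := fun h => hℓS (h ▸ hpS)
    refine (Matrix.charpoly_toLin' (M σ)).trans ?_
    rw [hM2 σ (χ (CuspForm.heckeAlgebra.T hℓ hℓN hℓS)), Cy.frob ℓ hℓ hℓp A hA σ hσ]
    intro v hv
    have h1 := D.es1 ℓ hℓ hℓN hℓS hℓp A hA σ hσ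
    have h2 := congrArg (fun B : Mat D.d 𝒪 => B.mulVec v) h1
    simp only [Matrix.add_mulVec, Matrix.sub_mulVec, Matrix.zero_mulVec] at h2
    have h3 := (mem_eigenO D χ _).mp (hE σ v hv) (CuspForm.heckeAlgebra.T hℓ hℓN hℓS)
    rw [← Matrix.mulVec_mulVec _ ((D.a _).map _), h3] at h2
    rw [Cy.frob ℓ hℓ hℓp A hA σ hσ]
    have h4 : ((ℓ : Mat D.d 𝒪)).mulVec v = (ℓ : 𝒪) • v := Matrix.natCast_mulVec ℓ v
    rw [h4] at h2
    exact h2
  · intro q hq hqN hqp P hP σ hσ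
    have h1 : D.R σ = 1 := D.es2 q hq hqN hqp P hP σ hσ
    have h2 : Cy.χ σ = 1 := Cy.inertia q hq hqp P hP σ hσ
    have h3 := hM1 ⊥ σ (by rw [h1, sub_self]; intro i j; exact Ideal.zero_mem _)
      (by rw [h2]; simp)
    have h4 : M σ = 1 := by
      ext i j
      have := h3 i j
      rw [Ideal.mem_bot, Matrix.sub_apply, sub_eq_zero] at this
      exact this
    rw [mkRep_ρ, h4, Matrix.toLin'_one]
    rfl

end Fermat.Agent.S30
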