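import Fermat.Agent.S30.Lim
import Fermat.Agent.S31.Cyclo

/-!
# S30/CYC : the `p`-adic cyclotomic character with values in a complete local ring `𝒪`, `p ∈ 𝔪`

For every `m` take `χ_m : G_ℚ →* (ZMod (p ^ m))ˣ` from `Fermat.Agent.S31.CycloAux.exists_cyclo_nat`
(finite level, `χ_m(Frob_ℓ) = ℓ`, trivial on inertia at `ℓ ≠ p`, `σ μ = μ ^ χ_m(σ)` for
`μ ^ (p ^ m) = 1`).  The last property gives `χ_{m+1}(σ).val ≡ χ_m(σ).val mod p ^ m` (apply it to a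
primitive `p ^ m`-th root of unity).  `χ σ = lim χ_m(σ).val` (`exists_lim`); multiplicative, etc. by
`eq_zero_of_forall_mem`; `MonoidHom.toHomUnits`.
Complex conjugation: `c = (Complex.conjAe restricted to ℚ).restrictNormal Qb` for an embedding
`Qb → ℂ` (`IsAlgClosed.lift`); `c * c = 1`; `c μ = μ⁻¹` for a root of unity (`‖μ‖ = 1` in `ℂ`), so
`χ_m(c) = -1`.
-/

set_option autoImplicit false

namespace Fermat.Agent.S30

open IsLocalRing

theorem exists_conj : ∃ c : GQ, c * c = 1 ∧ ∀ (n : ℕ) (μ : Qb), 0 < n → μ ^ n = 1 → c μ = μ⁻¹ := by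
  have : Algebra.IsAlgebraic ℚ Qb := Fermat.Agent.Frob.isAlgebraicQbar
  have : Normal ℚ Qb := Fermat.Agent.Frob.isGaloisQbar.to_normal
  let ι : Qb →ₐ[ℚ] ℂ := IsAlgClosed.lift
  let _ : Algebra Qb ℂ := ι.toRingHom.toAlgebra
  have : IsScalarTower ℚ Qb ℂ := IsScalarTower.of_algebraMap_eq fun x => (ι.commutes x).symm
  let cj : ℂ ≃ₐ[ℚ] ℂ := Complex.conjAe.restrictScalars ℚ
  let c : GQ := cj.restrictNormal Qb
  have hc : ∀ x : Qb, ι (c x) = (starRingEnd ℂ) (ι x) := fun x =>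
    AlgEquiv.restrictNormal_commutes cj Qb x
  have hinj : Function.Injective ι := ι.toRingHom.injective
  refine ⟨c, ?_, ?_⟩
  · ext x
    apply hinj
    rw [AlgEquiv.mul_apply, hc, hc, Complex.conj_conj]
    rfl
  · intro n μ hn hμ
    apply hinj
    rw [hc, map_inv₀]
    have h1 : (ι μ) ^ n = 1 := by rw [← map_pow, hμ, map_one]
    have h2 : ‖ι μ‖ = 1 := Complex.norm_eq_one_of_pow_eq_one h1 hn.ne'
    rw [Complex.inv_def, Complex.normSq_eq_norm_sq, h2]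
    simp

namespace CycAux

variable {𝒪 : Type} [CommRing 𝒪] [IsLocalRing 𝒪]

theorem cast_mem_of_dvd {p : ℕ} (hp𝒪 : (p : 𝒪) ∈ maximalIdeal 𝒪) {m : ℕ} {a : ℤ}
    (h : (p : ℤ) ^ m ∣ a) : ((a : ℤ) : 𝒪) ∈ maximalIdeal 𝒪 ^ m := by
  obtain ⟨b, rfl⟩ := h
  push_cast
  exact Ideal.mul_mem_right _ _ (Ideal.pow_mem_pow hp𝒪 m)

theorem dvd_of_cast_eq {p m : ℕ} {a b : ℤ} (h : ((a : ℤ) : ZMod (p ^ m)) = ((b : ℤ) : ZMod (p ^ m))) :
    (p : ℤ) ^ m ∣ a - b := by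
  have := (ZMod.intCast_eq_intCast_iff_dvd_sub b a (p ^ m)).mp h.symm
  exact_mod_cast this

end CycAux

open CycAux

theorem exists_cycData {p : ℕ} (hp : p.Prime) (𝒪 : Type) [CommRing 𝒪] [IsLocalRing 𝒪]
    [IsAdicComplete (maximalIdeal 𝒪) 𝒪] (hp𝒪 : (p : 𝒪) ∈ maximalIdeal 𝒪) :
    Nonempty (CycData p 𝒪) := by
  have hne : ∀ m : ℕ, NeZero (p ^ m) := fun m => ⟨pow_ne_zero _ hp.ne_zero⟩
  have hnd : ∀ (m ℓ : ℕ), ℓ.Prime → ℓ ≠ p → ¬ ℓ ∣ p ^ m := fun m ℓ hℓ hne hd =>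
    hne ((Nat.prime_dvd_prime_iff_eq hℓ hp).mp (hℓ.dvd_of_dvd_pow hd))
  choose χ hlev hfrob hin hspec using fun m : ℕ => S31.CycloAux.exists_cyclo_nat (p ^ m)
  choose ζ hζ using fun m : ℕ => HasEnoughRootsOfUnity.exists_primitiveRoot Qb (p ^ m)
  let z : GQ → ℕ → ℤ := fun σ m => ((((χ m σ : (ZMod (p ^ m))ˣ) : ZMod (p ^ m)).val : ℕ) : ℤ)
  have hz : ∀ σ m, ((z σ m : ℤ) : ZMod (p ^ m)) = ((χ m σ : (ZMod (p ^ m))ˣ) : ZMod (p ^ m)) := by
    intro σ m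
    have := hne m
    simp only [z, Int.cast_natCast]
    exact ZMod.natCast_zmod_val _
  have hcompat : ∀ σ m, (p : ℤ) ^ m ∣ z σ (m + 1) - z σ m := by
    intro σ m
    have h1 := hspec m σ (ζ m) (hζ m).pow_eq_one
    have h2 := hspec (m + 1) σ (ζ m) (by rw [pow_succ, pow_mul, (hζ m).pow_eq_one, one_pow])
    rw [h1] at h2
    have hfo : IsOfFinOrder (ζ m) :=
      isOfFinOrder_iff_pow_eq_one.mpr ⟨p ^ m, pow_pos hp.pos m, (hζ m).pow_eq_one⟩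
    have h3 := hfo.pow_eq_pow_iff_modEq.mp h2
    rw [← (hζ m).eq_orderOf] at h3
    have h4 := (Nat.modEq_iff_dvd).mp h3
    simp only [z]
    rw [Nat.cast_pow] at h4
    exact h4
  choose l hl using fun σ => exists_lim hp𝒪 (z σ) (hcompat σ)
  -- the basic principle
  have hprin : ∀ (σ : GQ) (x : 𝒪) (k : ℕ → ℤ), (∀ m, (p : ℤ) ^ m ∣ z σ m - k m) →
      (∀ m, ((k m : ℤ) : 𝒪) - x ∈ maximalIdeal 𝒪 ^ m) → l σ = x := by
    intro σ x k h1 h2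
    rw [← sub_eq_zero]
    refine eq_zero_of_forall_mem _ fun m => ?_
    have h3 := cast_mem_of_dvd hp𝒪 (h1 m)
    have h4 : l σ - x = (l σ - (z σ m : 𝒪)) + ((z σ m - k m : ℤ) : 𝒪) + (((k m : ℤ) : 𝒪) - x) := by
      push_cast; ring
    rw [h4]
    exact Ideal.add_mem _ (Ideal.add_mem _ (hl σ m) h3) (h2 m)
  have hconst : ∀ (σ : GQ) (k : ℤ), (∀ m, (p : ℤ) ^ m ∣ z σ m - k) → l σ = (k : 𝒪) :=
    fun σ k h => hprin σ _ (fun _ => k) h fun m => by rw [sub_self]; exact Ideal.zero_mem _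
  have hone : ∀ σ : GQ, (∀ m, χ m σ = 1) → l σ = 1 := by
    intro σ h
    have := hconst σ 1 fun m => dvd_of_cast_eq (by rw [hz, h m]; simp)
    simpa using this
  let f : GQ →* 𝒪 :=
    { toFun := l
      map_one' := hone 1 fun m => map_one _
      map_mul' := fun σ τ => by
        refine hprin (σ * τ) _ (fun m => z σ m * z τ m)
          (fun m => dvd_of_cast_eq (by push_cast; rw [hz, hz, hz, map_mul]; rfl)) fun m => ?_
        have h4 : ((z σ m * z τ m : ℤ) : 𝒪) - l σ * l τ =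
            -((z σ m : 𝒪) * (l τ - (z τ m : 𝒪)) + (l σ - (z σ m : 𝒪)) * l τ) := by
          push_cast; ring
        rw [h4]
        exact Ideal.neg_mem_iff _ |>.mpr (Ideal.add_mem _ (Ideal.mul_mem_left _ _ (hl τ m))
          (Ideal.mul_mem_right _ _ (hl σ m))) }
  have hf : ∀ σ, ((f.toHomUnits σ : 𝒪ˣ) : 𝒪) = l σ := fun σ => rfl
  obtain ⟨c, hc1, hc2⟩ := exists_conj
  refine ⟨⟨f.toHomUnits, ?_, ?_, ?_, c, hc1, ?_⟩⟩
  · intro n
    obtain ⟨L, hL, h⟩ := hlev n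
    refine ⟨L, hL, fun σ hσ => ?_⟩
    rw [hf]
    have h1 : (p : ℤ) ^ n ∣ z σ n - 1 := dvd_of_cast_eq (by rw [hz, h σ hσ]; simp)
    have h2 := cast_mem_of_dvd hp𝒪 h1
    have h3 : l σ - 1 = (l σ - (z σ n : 𝒪)) + ((z σ n - 1 : ℤ) : 𝒪) := by push_cast; ring
    rw [h3]
    exact Ideal.add_mem _ (hl σ n) h2
  · intro ℓ hℓ hne A hA τ hτ
    rw [hf]
    have := hconst τ (ℓ : ℤ) fun m => dvd_of_cast_eq (by
      rw [hz, hfrob m ℓ hℓ (hnd m ℓ hℓ hne) A hA τ hτ]; simp)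
    simpa using this
  · intro q hq hne A hA σ hσ
    apply Units.ext
    rw [hf]
    exact hone σ fun m => hin m q hq (hnd m q hq hne) A hA σ hσ
  · rw [hf]
    have := hconst c (-1) fun m => by
      have h1 := hspec m c (ζ m) (hζ m).pow_eq_one
      rw [hc2 (p ^ m) (ζ m) (pow_pos hp.pos m) (hζ m).pow_eq_one] at h1
      have h0 : ζ m ≠ 0 := (hζ m).ne_zero (pow_ne_zero _ hp.ne_zero)
      have h2 : ζ m ^ (((χ m c : (ZMod (p ^ m))ˣ) : ZMod (p ^ m)).val + 1) = 1 := by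
        rw [pow_succ, ← h1, inv_mul_cancel₀ h0]
      have h3 := (hζ m).dvd_of_pow_eq_one _ h2
      have h4 : ((p ^ m : ℕ) : ℤ) ∣ ((((χ m c : (ZMod (p ^ m))ˣ) : ZMod (p ^ m)).val + 1 : ℕ) : ℤ) :=
        Int.natCast_dvd_natCast.mpr h3
      have h5 : z c m - -1 = ((((χ m c : (ZMod (p ^ m))ˣ) : ZMod (p ^ m)).val + 1 : ℕ) : ℤ) := by
        simp only [z]; push_cast; ring
      rw [h5]
      exact_mod_cast h4
    simpa using this

end Fermat.Agent.S30
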