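import Mathlib
import Fermat.Prelude.Def_CuspForm_HeckeGaloisRepDatum

/-!
# S30 : definitions

`MatTower N S p` is the (matrix form of the) Eichler–Shimura tower: `X = ℤ ^ d` a faithful module over
the Hecke algebra `𝕋 = heckeAlgebra N 2 S` (`a : 𝕋 →+* M_d(ℤ)` injective;
`X = Hom_par(Γ₀(N), ℤ)`), and for every `m` the action of `G_ℚ` on
`X / p ^ m X = W_{p^m} = {u : p ^ m ∣ div u} / F^{× p^m}`, written as an integer matrix `r m g`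
which is only well defined (and multiplicative) modulo `p ^ m`.
-/

set_option autoImplicit false

namespace Fermat.Agent.S30

/-- `ℚ̄` (reducible, the same as `Fermat.Agent.S29.Qb`) -/
abbrev Qb : Type := AlgebraicClosure ℚ
/-- `G_ℚ` (reducible, the same as `Fermat.Agent.S29.GQ`) -/
abbrev GQ : Type := Qb ≃ₐ[ℚ] Qb

/-- square matrices of size `d` -/
abbrev Mat (d : ℕ) (R : Type*) : Type _ := Matrix (Fin d) (Fin d) R

/-- entrywise congruence of integer matrices -/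
def MCong (M : ℤ) {d : ℕ} (A B : Mat d ℤ) : Prop := ∀ i j, M ∣ A i j - B i j

/-- the Eichler–Shimura tower in matrix form -/
structure MatTower (N : ℕ) [NeZero N] (S : Set ℕ) (p : ℕ) where
  /-- the rank `2 g` -/
  d : ℕ
  /-- the Hecke action on the lattice -/
  a : CuspForm.heckeAlgebra N 2 S →+* Mat d ℤ
  a_inj : Function.Injective a
  /-- the Galois action modulo `p ^ m` -/
  r : ℕ → GQ → Mat d ℤ
  r_one : ∀ m, MCong ((p : ℤ) ^ m) (r m 1) 1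
  r_mul : ∀ m g h, MCong ((p : ℤ) ^ m) (r m (g * h)) (r m g * r m h)
  r_succ : ∀ m g, MCong ((p : ℤ) ^ m) (r (m + 1) g) (r m g)
  level : ∀ m, ∃ L : IntermediateField ℚ Qb, FiniteDimensional ℚ L ∧
    ∀ σ : GQ, (∀ x ∈ L, σ x = x) → MCong ((p : ℤ) ^ m) (r m σ) 1
  comm : ∀ m g t, MCong ((p : ℤ) ^ m) (r m g * a t) (a t * r m g)
  es1 : ∀ (m ℓ : ℕ) (hℓ : ℓ.Prime) (hℓN : ¬ ℓ ∣ N) (hℓS : ℓ ∉ S), ℓ ≠ p →
    ∀ A : ValuationSubring Qb, A.LiesOverPrime ℓ → ∀ τ : GQ, A.IsFrobeniusAt τ ℓ →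
      MCong ((p : ℤ) ^ m)
        (r m τ * r m τ - a (CuspForm.heckeAlgebra.T hℓ hℓN hℓS) * r m τ + (ℓ : Mat d ℤ)) 0
  es2 : ∀ (m q : ℕ), q.Prime → ¬ q ∣ N → q ≠ p →
    ∀ A : ValuationSubring Qb, A.LiesOverPrime q → ∀ σ ∈ A.inertiaSubgroupIn ℚ,
      MCong ((p : ℤ) ^ m) (r m σ) 1

/-- entrywise membership in an ideal -/
def MMem {R : Type*} [CommRing R] (I : Ideal R) {d : ℕ} (A : Mat d R) : Prop := ∀ i j, A i j ∈ I

/-- the `p`-adic limit of a tower over a complete ring `𝒪` -/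
structure AdicData (N : ℕ) [NeZero N] (S : Set ℕ) (p : ℕ) (𝒪 : Type) [CommRing 𝒪] [IsLocalRing 𝒪]
    where
  d : ℕ
  a : CuspForm.heckeAlgebra N 2 S →+* Mat d ℤ
  a_inj : Function.Injective a
  R : GQ →* Mat d 𝒪
  cont : ∀ n : ℕ, ∃ L : IntermediateField ℚ Qb, FiniteDimensional ℚ L ∧
    ∀ σ : GQ, (∀ x ∈ L, σ x = x) → MMem (IsLocalRing.maximalIdeal 𝒪 ^ n) (R σ - 1)
  comm : ∀ g t, R g * (a t).map (Int.castRingHom 𝒪) = (a t).map (Int.castRingHom 𝒪) * R g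
  es1 : ∀ (ℓ : ℕ) (hℓ : ℓ.Prime) (hℓN : ¬ ℓ ∣ N) (hℓS : ℓ ∉ S), ℓ ≠ p →
    ∀ A : ValuationSubring Qb, A.LiesOverPrime ℓ → ∀ τ : GQ, A.IsFrobeniusAt τ ℓ →
      R τ * R τ - (a (CuspForm.heckeAlgebra.T hℓ hℓN hℓS)).map (Int.castRingHom 𝒪) * R τ
        + (ℓ : Mat d 𝒪) = 0
  es2 : ∀ q : ℕ, q.Prime → ¬ q ∣ N → q ≠ p →
    ∀ A : ValuationSubring Qb, A.LiesOverPrime q → ∀ σ ∈ A.inertiaSubgroupIn ℚ, R σ = 1

/-- the `χ`-eigenvectors of the Hecke algebra in `𝒪 ^ d` -/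
def eigenO {N : ℕ} [NeZero N] {S : Set ℕ} {p : ℕ} {𝒪 : Type} [CommRing 𝒪] [IsLocalRing 𝒪]
    (D : AdicData N S p 𝒪) (χ : CuspForm.heckeAlgebra N 2 S →+* 𝒪) :
    Submodule 𝒪 (Fin D.d → 𝒪) where
  carrier := {v | ∀ x, ((D.a x).map (Int.castRingHom 𝒪)).mulVec v = χ x • v}
  add_mem' := fun {v w} hv hw x => by rw [Matrix.mulVec_add, hv x, hw x, smul_add]
  zero_mem' := fun x => by rw [Matrix.mulVec_zero, smul_zero]
  smul_mem' := fun c v hv x => by rw [Matrix.mulVec_smul, hv x, smul_comm]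

theorem mem_eigenO {N : ℕ} [NeZero N] {S : Set ℕ} {p : ℕ} {𝒪 : Type} [CommRing 𝒪] [IsLocalRing 𝒪]
    (D : AdicData N S p 𝒪) (χ : CuspForm.heckeAlgebra N 2 S →+* 𝒪) (v : Fin D.d → 𝒪) :
    v ∈ eigenO D χ ↔ ∀ x, ((D.a x).map (Int.castRingHom 𝒪)).mulVec v = χ x • v := Iff.rfl

/-- the `p`-adic cyclotomic character with values in `𝒪` -/
structure CycData (p : ℕ) (𝒪 : Type) [CommRing 𝒪] [IsLocalRing 𝒪] where
  χ : GQ →* 𝒪ˣ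
  cont : ∀ n : ℕ, ∃ L : IntermediateField ℚ Qb, FiniteDimensional ℚ L ∧
    ∀ σ : GQ, (∀ x ∈ L, σ x = x) → ((χ σ : 𝒪ˣ) : 𝒪) - 1 ∈ IsLocalRing.maximalIdeal 𝒪 ^ n
  frob : ∀ ℓ : ℕ, ℓ.Prime → ℓ ≠ p → ∀ A : ValuationSubring Qb, A.LiesOverPrime ℓ →
    ∀ τ : GQ, A.IsFrobeniusAt τ ℓ → ((χ τ : 𝒪ˣ) : 𝒪) = (ℓ : 𝒪)
  inertia : ∀ q : ℕ, q.Prime → q ≠ p → ∀ A : ValuationSubring Qb, A.LiesOverPrime q →
    ∀ σ ∈ A.inertiaSubgroupIn ℚ, χ σ = 1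
  /-- complex conjugation -/
  c : GQ
  c_sq : c * c = 1
  χ_c : ((χ c : 𝒪ˣ) : 𝒪) = -1

end Fermat.Agent.S30
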