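import Fermat.Agent.S30.Tower
import Fermat.Agent.S31.Raw

/-!
# S30/ES, abstract part : from raw Kummer data (all levels `p ^ m`) to the Eichler–Shimura tower

Same raw data as `S31.esInterface_of_raw`, plus
* `hstab` : the image of `Θ m` is Galois stable (`S30.Surj.exists_isKummer_of_pdiv`),
* `hcompat` : compatibility of the levels `m + 1` and `m`.
-/

set_option autoImplicit false

namespace Fermat.Agent.S30

open Fermat.Agent.S31 (HasLift end_add_apply end_mul_apply end_one_apply)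

section One

variable {𝒲 X : Type} [AddCommGroup 𝒲] [AddCommGroup X]
  (act : GQ →* AddMonoid.End 𝒲) (Θ : X →+ 𝒲) (hstab : ∀ g c, ∃ c', act g (Θ c) = Θ c')

/-- the Galois action on the image of `Θ` -/
noncomputable def actR : GQ →* AddMonoid.End Θ.range where
  toFun σ := AddMonoidHom.codRestrict ((show 𝒲 →+ 𝒲 from act σ).comp Θ.range.subtype) Θ.range
    (fun w => by
      obtain ⟨c, hc⟩ := w.2
      obtain ⟨c', hc'⟩ := hstab σ c
      exact ⟨c', by rw [← hc', hc]; rfl⟩)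
  map_one' := by
    ext w
    show act 1 (w : 𝒲) = w
    rw [map_one]; rfl
  map_mul' σ τ := by
    ext w
    show act (σ * τ) (w : 𝒲) = act σ (act τ (w : 𝒲))
    rw [map_mul]; rfl

theorem coe_actR (σ : GQ) (w : Θ.range) : ((actR act Θ hstab σ w : Θ.range) : 𝒲) = act σ (w : 𝒲) :=
  rfl

theorem actR_eq_iff (σ : GQ) (x y : X) :
    actR act Θ hstab σ (Θ.rangeRestrict x) = Θ.rangeRestrict y ↔ act σ (Θ x) = Θ y :=
  ⟨fun h => congrArg Subtype.val h, fun h => Subtype.ext h⟩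

end One

theorem hasLift_all {N : ℕ} [NeZero N] {S : Set ℕ}
    (hNS : ∀ q : ℕ, q.Prime → q ∣ N → q ∈ S)
    {X : Type} [AddCommGroup X]
    (κ : CuspForm.heckeAlgebra N 2 S →+* Module.End ℤ X)
    {𝒲 : Type} [AddCommGroup 𝒲] (act : GQ →* AddMonoid.End 𝒲) (Θ : X →+ 𝒲)
    (hES : ∀ (ℓ : ℕ) (hℓ : ℓ.Prime) (hℓN : ¬ ℓ ∣ N) (hℓS : ℓ ∉ S) (A : ValuationSubring Qb),
        A.LiesOverPrime ℓ → ∀ σ : GQ, A.IsFrobeniusAt σ ℓ → ∀ (g : GQ) (c : X),
          act g (Θ (κ (CuspForm.heckeAlgebra.T hℓ hℓN hℓS) c)) =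
            act σ (act g (Θ c)) + ℓ • act σ⁻¹ (act g (Θ c))) :
    ∀ t, HasLift act Θ κ t := by
  rintro ⟨t, ht⟩
  induction ht using Algebra.adjoin_induction with
  | mem x hx =>
    rcases hx with ⟨ℓ, hℓ, hℓN, hℓS, rfl⟩ | ⟨q, hqN, hq, hqS, rfl⟩
    · obtain ⟨A, hA⟩ := Fermat.Agent.Frob.exists_liesOverPrime hℓ
      obtain ⟨σ, hσ⟩ := Fermat.Agent.Frob.exists_isFrobeniusAt A hℓ hA
      refine ⟨act σ + (ℓ : AddMonoid.End 𝒲) * act σ⁻¹, fun g c => ?_⟩
      rw [end_add_apply, end_mul_apply, AddMonoid.End.natCast_apply]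
      exact (hES ℓ hℓ hℓN hℓS A hA σ hσ g c).symm
    · exact absurd (hNS q hq hqN) hqS
  | algebraMap r => exact HasLift.intCast act Θ κ r
  | add x y hx hy ihx ihy =>
    have h := ihx.add act Θ κ ihy
    have e : (⟨x, hx⟩ + ⟨y, hy⟩ : CuspForm.heckeAlgebra N 2 S) = ⟨x + y, add_mem hx hy⟩ := rfl
    rw [e] at h
    exact h
  | mul x y hx hy ihx ihy =>
    have h := ihx.mul act Θ κ ihy
    have e : (⟨x, hx⟩ * ⟨y, hy⟩ : CuspForm.heckeAlgebra N 2 S) = ⟨x * y, mul_mem hx hy⟩ := rfl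
    rw [e] at h
    exact h

theorem esTower_of_raw {p N : ℕ} [NeZero N] {S : Set ℕ} (hpS : p ∈ S)
    (hNS : ∀ q : ℕ, q.Prime → q ∣ N → q ∈ S)
    (X : Type) [AddCommGroup X] [Module.Free ℤ X] [Module.Finite ℤ X]
    (κ : CuspForm.heckeAlgebra N 2 S →+* Module.End ℤ X) (hκ : Function.Injective κ)
    (𝒲 : ℕ → Type) [∀ m, AddCommGroup (𝒲 m)] (act : ∀ m, GQ →* AddMonoid.End (𝒲 m))
    (Θ : ∀ m, X →+ 𝒲 m)
    (hkill : ∀ m (w : 𝒲 m), (p ^ m) • w = 0)
    (hker : ∀ m c, Θ m c = 0 → ∃ c', c = (p ^ m) • c')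
    (hlevel : ∀ m c, ∃ L : IntermediateField ℚ Qb, FiniteDimensional ℚ L ∧
        ∀ g : GQ, (∀ x ∈ L, g x = x) → act m g (Θ m c) = Θ m c)
    (hstab : ∀ m g c, ∃ c', act m g (Θ m c) = Θ m c')
    (hcompat : ∀ m g c c', act (m + 1) g (Θ (m + 1) c) = Θ (m + 1) c' → act m g (Θ m c) = Θ m c')
    (hES : ∀ (m ℓ : ℕ) (hℓ : ℓ.Prime) (hℓN : ¬ ℓ ∣ N) (hℓS : ℓ ∉ S) (A : ValuationSubring Qb),
        A.LiesOverPrime ℓ → ∀ σ : GQ, A.IsFrobeniusAt σ ℓ → ∀ (g : GQ) (c : X),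
          act m g (Θ m (κ (CuspForm.heckeAlgebra.T hℓ hℓN hℓS) c)) =
            act m σ (act m g (Θ m c)) + ℓ • act m σ⁻¹ (act m g (Θ m c)))
    (hI : ∀ (m q : ℕ), q.Prime → ¬ q ∣ N → q ≠ p → ∀ A : ValuationSubring Qb, A.LiesOverPrime q →
        ∀ τ ∈ A.inertiaSubgroupIn ℚ, ∀ (g : GQ) (c : X),
          act m τ (act m g (Θ m c)) = act m g (Θ m c)) :
    Nonempty (ESTower N S p) := by
  have _ := hpS
  have hall : ∀ m t, HasLift (act m) (Θ m) κ t := fun m =>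
    hasLift_all hNS κ (act m) (Θ m) (hES m)
  have hone : ∀ m (w : 𝒲 m), act m 1 w = w := fun m w => by rw [map_one]; rfl
  refine ⟨{
    X := X
    a := (addMonoidEndRingEquivInt X).symm.toRingHom.comp κ
    a_inj := (addMonoidEndRingEquivInt X).symm.injective.comp hκ
    W := fun m => (Θ m).range
    e := fun m => (Θ m).rangeRestrict
    e_surj := fun m => (Θ m).rangeRestrict_surjective
    e_ker := ?_
    act := fun m => actR (act m) (Θ m) (hstab m)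
    level := ?_
    compat := ?_
    comm := ?_
    es1 := ?_
    es2 := ?_ }⟩
  · intro m x
    constructor
    · intro h
      exact hker m x (congrArg Subtype.val h)
    · rintro ⟨y, rfl⟩
      apply Subtype.ext
      show Θ m ((p ^ m) • y) = 0
      rw [map_nsmul, hkill]
  · intro m
    obtain ⟨L, hLfin, -, hL⟩ := Fermat.Agent.S31.exists_level (act m) (Θ m) (hlevel m)
    refine ⟨L, hLfin, fun σ hσ => ?_⟩
    ext w
    obtain ⟨c, hc⟩ := w.2
    rw [coe_actR, ← hc, hL σ hσ c, hc]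
    rfl
  · intro m σ x y h
    rw [actR_eq_iff] at h ⊢
    exact hcompat m σ x y h
  · intro m σ t x y h
    rw [actR_eq_iff] at h ⊢
    obtain ⟨E, hE⟩ := hall m t
    show act m σ (Θ m (κ t x)) = Θ m (κ t y)
    rw [← hE σ x, h, ← hone m (Θ m y), hE 1 y, hone]
  · intro m ℓ hℓ hℓN hℓS _ A hA τ hτ x y z h1 h2
    rw [actR_eq_iff] at h1 h2
    apply Subtype.ext
    show Θ m (z - κ (CuspForm.heckeAlgebra.T hℓ hℓN hℓS) y + ℓ • x) = 0
    have h3 := hES m ℓ hℓ hℓN hℓS A hA τ hτ 1 y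
    rw [hone, hone, h2, ← h1, ← end_mul_apply, ← map_mul, inv_mul_cancel, hone] at h3
    rw [map_add, map_sub, map_nsmul, h3]
    abel
  · intro m q hq hqN hqp A hA σ hσ
    ext w
    obtain ⟨c, hc⟩ := w.2
    have h := hI m q hq hqN hqp A hA σ hσ 1 c
    rw [hone] at h
    rw [coe_actR, ← hc, h, hc]
    rfl

end Fermat.Agent.S30
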