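import Fermat.Agent.S30.Defs

/-!
# S30/LIM : the `p`-adic limit of a tower

`𝒪` a local ring, complete for its maximal ideal `𝔪`, `p ∈ 𝔪`.  A sequence of integers `z m` with
`z (m+1) ≡ z m mod p ^ m` has a unique limit in `𝒪` (`IsPrecomplete` / `IsHausdorff`).
Apply this to every entry of `𝒯.r m g`; all the congruences modulo `p ^ m` of the tower become
equalities in `M_d(𝒪)` (an element lying in `𝔪 ^ m` for all `m` is `0`).
-/

set_option autoImplicit false

namespace Fermat.Agent.S30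

open IsLocalRing

namespace LimAux

variable {R : Type*} [CommRing R] {d : ℕ}

theorem MMem.zero (I : Ideal R) : MMem I (0 : Mat d R) := fun _ _ => I.zero_mem

theorem MMem.add {I : Ideal R} {A B : Mat d R} (hA : MMem I A) (hB : MMem I B) :
    MMem I (A + B) := fun i j => I.add_mem (hA i j) (hB i j)

theorem MMem.sub {I : Ideal R} {A B : Mat d R} (hA : MMem I A) (hB : MMem I B) :
    MMem I (A - B) := fun i j => I.sub_mem (hA i j) (hB i j)

theorem MMem.neg {I : Ideal R} {A : Mat d R} (hA : MMem I A) :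
    MMem I (-A) := fun i j => I.neg_mem (hA i j)

theorem MMem.mul_left {I : Ideal R} (A : Mat d R) {B : Mat d R} (hB : MMem I B) :
    MMem I (A * B) := fun i j => by
  rw [Matrix.mul_apply]
  exact I.sum_mem fun k _ => I.mul_mem_left _ (hB k j)

theorem MMem.mul_right {I : Ideal R} {A : Mat d R} (hA : MMem I A) (B : Mat d R) :
    MMem I (A * B) := fun i j => by
  rw [Matrix.mul_apply]
  exact I.sum_mem fun k _ => I.mul_mem_right _ (hA i k)

/-- congruence of matrices modulo an ideal -/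
def Cg (I : Ideal R) (A B : Mat d R) : Prop := MMem I (A - B)

theorem Cg.refl (I : Ideal R) (A : Mat d R) : Cg I A A := by
  unfold Cg; rw [sub_self]; exact MMem.zero I

theorem Cg.symm {I : Ideal R} {A B : Mat d R} (h : Cg I A B) : Cg I B A := by
  unfold Cg at *; rw [← neg_sub]; exact MMem.neg h

theorem Cg.trans {I : Ideal R} {A B C : Mat d R} (h : Cg I A B) (h' : Cg I B C) : Cg I A C := by
  unfold Cg at *; rw [← sub_add_sub_cancel A B C]; exact MMem.add h h'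

theorem Cg.add {I : Ideal R} {A B C D : Mat d R} (h : Cg I A B) (h' : Cg I C D) :
    Cg I (A + C) (B + D) := by
  unfold Cg at *; rw [add_sub_add_comm]; exact MMem.add h h'

theorem Cg.sub {I : Ideal R} {A B C D : Mat d R} (h : Cg I A B) (h' : Cg I C D) :
    Cg I (A - C) (B - D) := by
  unfold Cg at *; rw [sub_sub_sub_comm]; exact MMem.sub h h'

theorem Cg.mul {I : Ideal R} {A B C D : Mat d R} (h : Cg I A B) (h' : Cg I C D) :
    Cg I (A * C) (B * D) := by
  unfold Cg at *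
  have : A * C - B * D = (A - B) * C + B * (C - D) := by
    rw [sub_mul, mul_sub]; abel
  rw [this]
  exact MMem.add (MMem.mul_right h C) (MMem.mul_left B h')

end LimAux

open LimAux

variable {𝒪 : Type} [CommRing 𝒪] [IsLocalRing 𝒪] [IsAdicComplete (maximalIdeal 𝒪) 𝒪]

theorem eq_zero_of_forall_mem (x : 𝒪) (h : ∀ m : ℕ, x ∈ maximalIdeal 𝒪 ^ m) : x = 0 := by
  refine IsHausdorff.haus (I := maximalIdeal 𝒪) inferInstance x fun n => ?_
  rw [SModEq.zero, smul_eq_mul, Ideal.mul_top]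
  exact h n

theorem exists_lim {p : ℕ} (hp : (p : 𝒪) ∈ maximalIdeal 𝒪) (z : ℕ → ℤ)
    (hz : ∀ m, (p : ℤ) ^ m ∣ z (m + 1) - z m) :
    ∃ l : 𝒪, ∀ m, l - (z m : 𝒪) ∈ maximalIdeal 𝒪 ^ m := by
  have key : ∀ m k : ℕ, ((z (m + k) : ℤ) : 𝒪) - (z m : 𝒪) ∈ maximalIdeal 𝒪 ^ m := by
    intro m k
    induction k with
    | zero => simp
    | succ k ih =>
      obtain ⟨c, hc⟩ := hz (m + k)
      have h1 : ((z (m + (k + 1)) : ℤ) : 𝒪) - (z (m + k) : 𝒪) ∈ maximalIdeal 𝒪 ^ m := by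
        rw [← add_assoc, ← Int.cast_sub, hc]
        push_cast
        refine Ideal.mul_mem_right _ _ ?_
        exact Ideal.pow_le_pow_right (Nat.le_add_right m k) (Ideal.pow_mem_pow hp _)
      have := Ideal.add_mem _ h1 ih
      rwa [sub_add_sub_cancel] at this
  obtain ⟨l, hl⟩ := IsPrecomplete.prec (I := maximalIdeal 𝒪) inferInstance
    (f := fun m => ((z m : ℤ) : 𝒪)) (by
      intro m n hmn
      obtain ⟨k, rfl⟩ := Nat.exists_eq_add_of_le hmn
      rw [SModEq.sub_mem, smul_eq_mul, Ideal.mul_top, ← neg_sub]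
      exact Ideal.neg_mem_iff _ |>.2 (key m k))
  refine ⟨l, fun m => ?_⟩
  have := hl m
  rw [SModEq.sub_mem, smul_eq_mul, Ideal.mul_top, ← neg_sub] at this
  exact (Ideal.neg_mem_iff _).1 this

namespace LimAux

theorem mat_eq_of_forall {d : ℕ} (X Y : Mat d 𝒪) (h : ∀ m : ℕ, Cg (maximalIdeal 𝒪 ^ m) X Y) :
    X = Y := by
  rw [← sub_eq_zero]
  ext i j
  exact eq_zero_of_forall_mem _ fun m => h m i j

/-- cast of an integer matrix -/
noncomputable abbrev cst (𝒪 : Type) [CommRing 𝒪] {d : ℕ} : Mat d ℤ →+* Mat d 𝒪 :=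
  (Int.castRingHom 𝒪).mapMatrix

omit [IsAdicComplete (maximalIdeal 𝒪) 𝒪] in
theorem cg_of_mcong {p : ℕ} (hp : (p : 𝒪) ∈ maximalIdeal 𝒪) {d m : ℕ} {A B : Mat d ℤ}
    (h : MCong ((p : ℤ) ^ m) A B) : Cg (maximalIdeal 𝒪 ^ m) (cst 𝒪 A) (cst 𝒪 B) := by
  intro i j
  obtain ⟨c, hc⟩ := h i j
  have : (cst 𝒪 A - cst 𝒪 B) i j = ((A i j - B i j : ℤ) : 𝒪) := by
    simp [cst, RingHom.mapMatrix_apply, Matrix.map_apply]
  rw [this, hc]
  push_cast
  exact Ideal.mul_mem_right _ _ (Ideal.pow_mem_pow hp _)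

end LimAux

theorem exists_adic {N : ℕ} [NeZero N] {S : Set ℕ} {p : ℕ} (𝒯 : MatTower N S p)
    (hp : (p : 𝒪) ∈ maximalIdeal 𝒪) : Nonempty (AdicData N S p 𝒪) := by
  classical
  have hex : ∀ (g : GQ) (i j : Fin 𝒯.d), ∃ l : 𝒪, ∀ m,
      l - ((𝒯.r m g i j : ℤ) : 𝒪) ∈ maximalIdeal 𝒪 ^ m := fun g i j =>
    exists_lim hp (fun m => 𝒯.r m g i j) (fun m => 𝒯.r_succ m g i j)
  choose l hl using hex
  let R0 : GQ → Mat 𝒯.d 𝒪 := fun g => Matrix.of fun i j => l g i j
  have hR : ∀ m g, Cg (maximalIdeal 𝒪 ^ m) (R0 g) (cst 𝒪 (𝒯.r m g)) := by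
    intro m g i j
    have : (R0 g - cst 𝒪 (𝒯.r m g)) i j = l g i j - ((𝒯.r m g i j : ℤ) : 𝒪) := by
      simp [R0, cst, RingHom.mapMatrix_apply, Matrix.map_apply]
    rw [this]
    exact hl g i j m
  have hone : R0 1 = 1 := by
    refine mat_eq_of_forall _ _ fun m => (hR m 1).trans ?_
    have := cg_of_mcong (𝒪 := 𝒪) hp (𝒯.r_one m)
    rwa [map_one] at this
  have hmul : ∀ g h, R0 (g * h) = R0 g * R0 h := by
    intro g h
    refine mat_eq_of_forall _ _ fun m => (hR m (g * h)).trans ?_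
    have := cg_of_mcong (𝒪 := 𝒪) hp (𝒯.r_mul m g h)
    rw [map_mul] at this
    exact this.trans ((hR m g).mul (hR m h)).symm
  let R : GQ →* Mat 𝒯.d 𝒪 :=
    { toFun := R0
      map_one' := hone
      map_mul' := hmul }
  refine ⟨{ d := 𝒯.d, a := 𝒯.a, a_inj := 𝒯.a_inj, R := R, cont := ?_, comm := ?_, es1 := ?_,
            es2 := ?_ }⟩
  · intro n
    obtain ⟨L, hL, h⟩ := 𝒯.level n
    refine ⟨L, hL, fun σ hσ => ?_⟩
    have := cg_of_mcong (𝒪 := 𝒪) hp (h σ hσ)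
    rw [map_one] at this
    exact (hR n σ).trans this
  · intro g t
    refine mat_eq_of_forall _ _ fun m => ?_
    have := cg_of_mcong (𝒪 := 𝒪) hp (𝒯.comm m g t)
    rw [map_mul, map_mul] at this
    exact (((hR m g).mul (Cg.refl _ _)).trans this).trans
      ((Cg.refl _ _).mul (hR m g)).symm
  · intro ℓ hℓ hℓN hℓS hℓp A hA τ hτ
    refine mat_eq_of_forall _ _ fun m => ?_
    have := cg_of_mcong (𝒪 := 𝒪) hp (𝒯.es1 m ℓ hℓ hℓN hℓS hℓp A hA τ hτ)
    rw [map_add, map_sub, map_mul, map_mul, map_natCast, map_zero] at this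
    refine Cg.trans ?_ this
    exact (((hR m τ).mul (hR m τ)).sub ((Cg.refl _ _).mul (hR m τ))).add (Cg.refl _ _)
  · intro q hq hqN hqp A hA σ hσ
    refine mat_eq_of_forall _ _ fun m => (hR m σ).trans ?_
    have := cg_of_mcong (𝒪 := 𝒪) hp (𝒯.es2 m q hq hqN hqp A hA σ hσ)
    rwa [map_one] at this

end Fermat.Agent.S30
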