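import Fermat.Agent.ES.Extract

/-!
# S30/ODD : the extraction lemma over an arbitrary field of characteristic `≠ 2`, using an odd element

Same as `Fermat.Agent.ES.ExtractAux.finrank_le_two`, but the field is not algebraically closed;
instead there is `c` with `c² = 1`, `χ c = -1` (complex conjugation).
Proof.  `x = ρ c`, `x² = 1`; the relation `x² - t(c) x - 1 = 0` gives `t(c) = 0`.
`pairSpan_bilin` for `p = (x, 0)` and `q = (y, s)` in `pairSpan ρ t`:  `x y + y x = s x + c'`.
If `x v = v`:  `(x + 1) (y v) = (s + c') v`.  As `W` is irreducible, the `y v` (`y` in the span of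
`ρ G`) fill `W`, so `(x + 1) W ⊆ k v`.  In the same way `(x - 1) W ⊆ k v'` if `x v' = - v'`.
`2 w = (x + 1) w - (x - 1) w`, `(x + 1) w` is fixed by `x`, `(x - 1) w` is negated by `x`.
So `W` is spanned by at most two vectors.
-/

set_option autoImplicit false

namespace Fermat.Agent.S30

open Fermat.Agent.ES.ExtractAux

namespace OddAux

variable {k : Type*} [Field k] {G : Type*} [Group G]
  {W : Type*} [AddCommGroup W] [Module k W]

/-- the orbit span of a nonzero vector is everything -/
theorem span_orbit_eq_top (ρ : G →* Module.End k W) (hirr : Irr ρ) (v : W) (hv : v ≠ 0) :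
    Submodule.span k (Set.range fun g : G => ρ g v) = ⊤ := by
  rcases hirr.2 (Submodule.span k (Set.range fun g : G => ρ g v)) (by
    intro g x hx
    induction hx using Submodule.span_induction with
    | mem y hy =>
      obtain ⟨h, rfl⟩ := hy
      refine Submodule.subset_span ⟨g * h, ?_⟩
      simp only [map_mul, Module.End.mul_apply]
    | zero => simp
    | add y z _ _ hy hz => rw [map_add]; exact Submodule.add_mem _ hy hz
    | smul a y _ hy => rw [map_smul]; exact Submodule.smul_mem _ _ hy) with h | h
  · exfalso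
    apply hv
    have : v ∈ Submodule.span k (Set.range fun g : G => ρ g v) :=
      Submodule.subset_span ⟨1, by simp⟩
    rw [h] at this
    simpa using this
  · exact h

theorem exists_line (ρ : G →* Module.End k W) (χ : G →* kˣ) (t : G → k)
    (h : ∀ g, QRel (ρ g) (t g) (χ g : k)) (hirr : Irr ρ)
    (c : G) (hc : c * c = 1) (htc : t c = 0) (ε : k) (hε : ε * ε = 1) :
    ∃ v : W, ∀ w : W, ρ c w + ε • w ∈ Submodule.span k {v} := by
  have hxx : ∀ w, ρ c (ρ c w) = w := by
    intro w
    rw [← Module.End.mul_apply, ← map_mul, hc, map_one, Module.End.one_apply]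
  by_cases hex : ∃ v : W, v ≠ 0 ∧ ρ c v = ε • v
  · obtain ⟨v, hv0, hv⟩ := hex
    refine ⟨v, fun w => ?_⟩
    have hw : w ∈ Submodule.span k (Set.range fun g : G => ρ g v) := by
      rw [span_orbit_eq_top ρ hirr v hv0]; trivial
    induction hw using Submodule.span_induction with
    | mem y hy =>
      obtain ⟨g, rfl⟩ := hy
      have h1 := congrArg (fun y : Module.End k W => y v) (pair_rel ρ χ t h c g)
      simp only [LinearMap.sub_apply, LinearMap.add_apply, Module.End.mul_apply,
        LinearMap.smul_apply, Module.End.one_apply, htc, zero_smul, sub_zero, hv, map_smul,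
        zero_mul] at h1
      have h2 : ρ c (ρ g v) + ε • ρ g v = (t (c * g) + t g * ε) • v := by
        rw [add_smul, mul_smul, ← h1]; abel
      simp only
      rw [h2]
      exact Submodule.smul_mem _ _ (Submodule.mem_span_singleton_self v)
    | zero => simp
    | add y z _ _ hy hz =>
      have : ρ c (y + z) + ε • (y + z) = (ρ c y + ε • y) + (ρ c z + ε • z) := by
        rw [map_add, smul_add]; abel
      rw [this]; exact Submodule.add_mem _ hy hz
    | smul a y _ hy =>
      have : ρ c (a • y) + ε • (a • y) = a • (ρ c y + ε • y) := by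
        rw [map_smul, smul_add, smul_comm]
      rw [this]; exact Submodule.smul_mem _ _ hy
  · push Not at hex
    refine ⟨0, fun w => ?_⟩
    have h1 : ρ c (ρ c w + ε • w) = ε • (ρ c w + ε • w) := by
      rw [map_add, hxx, map_smul, smul_add, smul_smul, hε, one_smul, add_comm]
    have h2 : ρ c w + ε • w = 0 := by
      by_contra hne
      exact hex _ hne h1
    rw [h2]; simp

end OddAux

open OddAux in
theorem finrank_le_two_odd {k : Type*} [Field k] (h2 : (2 : k) ≠ 0) {G : Type*} [Group G]
    {W : Type*} [AddCommGroup W] [Module k W] [FiniteDimensional k W]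
    (ρ : G →* Module.End k W) (χ : G →* kˣ) (t : G → k)
    (h : ∀ g, QRel (ρ g) (t g) (χ g : k)) (hirr : Irr ρ)
    (c : G) (hc : c * c = 1) (hχc : (χ c : k) = -1) :
    Module.finrank k W ≤ 2 := by
  classical
  have hnt : Nontrivial W := hirr.1
  have hxx : ρ c * ρ c = 1 := by rw [← map_mul, hc, map_one]
  have htc : t c = 0 := by
    have h1 := h c
    unfold QRel at h1
    rw [hxx, hχc] at h1
    have h3 : t c • ρ c = 0 := by
      linear_combination (norm := module) (-1 : k) • h1
    rcases smul_eq_zero.mp h3 with h4 | h4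
    · exact h4
    · exfalso
      rw [h4, zero_mul] at hxx
      exact zero_ne_one hxx
  obtain ⟨v₁, hv₁⟩ := exists_line ρ χ t h hirr c hc htc 1 (by ring)
  obtain ⟨v₂, hv₂⟩ := exists_line ρ χ t h hirr c hc htc (-1) (by ring)
  have htop : (⊤ : Submodule k W) ≤ Submodule.span k (({v₁, v₂} : Finset W) : Set W) := by
    intro w _
    have e : w = (2 : k)⁻¹ • ((ρ c w + (1 : k) • w) - (ρ c w + (-1 : k) • w)) := by
      have : (ρ c w + (1 : k) • w) - (ρ c w + (-1 : k) • w) = (2 : k) • w := by module
      rw [this, smul_smul, inv_mul_cancel₀ h2, one_smul]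
    rw [e]
    refine Submodule.smul_mem _ _ (Submodule.sub_mem _ ?_ ?_)
    · exact Submodule.span_mono (by simp) (hv₁ w)
    · exact Submodule.span_mono (by simp) (hv₂ w)
  calc Module.finrank k W = Module.finrank k (⊤ : Submodule k W) := (finrank_top k W).symm
    _ ≤ Module.finrank k (Submodule.span k (({v₁, v₂} : Finset W) : Set W)) :=
        Submodule.finrank_mono htop
    _ ≤ ({v₁, v₂} : Finset W).card := finrank_span_finset_le_card _
    _ ≤ 2 := Finset.card_le_two

/-- a minimal nonzero invariant subspace inside a given nonzero invariant subspace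
(copy of `ExtractAux.exists_irr`) -/
theorem exists_irr_le {k : Type*} [Field k] {G : Type*} [Group G]
    {V : Type*} [AddCommGroup V] [Module k V] [FiniteDimensional k V]
    (ρ : G →* Module.End k V) (E : Submodule k V) (hE : ∀ g, ∀ x ∈ E, ρ g x ∈ E) (hE0 : E ≠ ⊥) :
    ∃ (U : Submodule k V) (hU : ∀ g, ∀ x ∈ U, ρ g x ∈ U), U ≤ E ∧ Irr (resRep ρ U hU) := by
  classical
  let P : ℕ → Prop := fun n => ∃ W : Submodule k V, (∀ g, ∀ x ∈ W, ρ g x ∈ W) ∧ W ≠ ⊥ ∧ W ≤ E ∧
    Module.finrank k W = n
  have hP : ∃ n, P n := ⟨_, E, hE, hE0, le_rfl, rfl⟩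
  obtain ⟨W, hW, hne, hle, hfin⟩ := Nat.find_spec hP
  refine ⟨W, hW, hle, ?_, ?_⟩
  · exact (Submodule.nontrivial_iff_ne_bot).mpr hne
  · intro U hU
    by_cases hU0 : U = ⊥
    · exact Or.inl hU0
    · right
      have h1 : P (Module.finrank k (U.map W.subtype)) := by
        refine ⟨U.map W.subtype, ?_, ?_, ?_, rfl⟩
        · rintro g _ ⟨x, hx, rfl⟩
          exact ⟨resRep ρ W hW g x, hU g x hx, rfl⟩
        · intro h
          apply hU0
          rw [Submodule.eq_bot_iff] at h ⊢
          intro x hx
          have := h _ ⟨x, hx, rfl⟩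
          exact Subtype.ext this
        · rintro _ ⟨x, _, rfl⟩
          exact hle x.2
      have h2 := Nat.find_min' hP h1
      rw [← hfin] at h2
      have h3 : Module.finrank k (U.map W.subtype) = Module.finrank k U :=
        LinearEquiv.finrank_eq (Submodule.equivMapOfInjective _ W.injective_subtype U).symm
      rw [h3] at h2
      exact Submodule.eq_top_of_finrank_eq (le_antisymm (Submodule.finrank_le U) h2)

end Fermat.Agent.S30
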