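import Fermat.Agent.S30.Defs
import Fermat.Agent.S31.Main
import Fermat.Agent.S31.Sat

/-!
# S30/TOW : the Eichler–Shimura tower, provider-friendly form

`ESTower N S p` is what the ES cluster has to construct:
* `X = Hom_par(Γ₀(N), ℤ)`, a finite free `ℤ`-module with a faithful action `a` of the Hecke algebra
  (`a (T_ℓ) κ (γ) = ∑ κ (δ_i)`, `S16.Lower.HData`; faithful by `S21` + `S16.Lower.periodHomPair_heckeTLin`);
* `W m = W_{p^m} = {u ∈ F^× : p ^ m ∣ div u} / F^{× p^m}` (written additively) with its `G_ℚ`-action;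
* `e m : X → W m`, `κ ↦ [h ^ (p ^ m)]`, `h ∘ γ = exp(2 π i κ(γ) / p ^ m) h`: surjective with kernel
  `p ^ m X`; the natural map `W (m+1) → W m`, `[u] ↦ [u]`, sends `e (m+1) κ` to `e m κ` (this gives `compat`).

`toMatTower`: choose a `ℤ`-basis of `X`, and for all `m, g, j` a lift `y` of `act m g (e m (b j))`.
`esInterface_of_matTower`: `W = (ZMod (p ^ m)) ^ d`, `m = n + c`; (ES3): the saturation
`{y ∈ M_d(ℤ) : ∃ k ≠ 0, k y ∈ a(𝕋)}` is finitely generated, so `k₀ • sat ⊆ a(𝕋)` for one `k₀ = p ^ c k'`,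
`p ∤ k'`; `a x ≡ 0 mod p ^ (n + c)` gives `k₀ x = p ^ (n + c) w`, `k' x = p ^ n w`, Bezout.
-/

set_option autoImplicit false

namespace Fermat.Agent.S30

/-- the Eichler–Shimura tower -/
structure ESTower (N : ℕ) [NeZero N] (S : Set ℕ) (p : ℕ) where
  X : Type
  [instX : AddCommGroup X]
  [freeX : Module.Free ℤ X]
  [finX : Module.Finite ℤ X]
  a : CuspForm.heckeAlgebra N 2 S →+* AddMonoid.End X
  a_inj : Function.Injective a
  W : ℕ → Type
  [instW : ∀ m, AddCommGroup (W m)]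
  e : ∀ m, X →+ W m
  e_surj : ∀ m, Function.Surjective (e m)
  e_ker : ∀ m x, e m x = 0 ↔ ∃ y, x = (p ^ m) • y
  act : ∀ m, GQ →* AddMonoid.End (W m)
  level : ∀ m, ∃ L : IntermediateField ℚ Qb, FiniteDimensional ℚ L ∧
    ∀ σ : GQ, (∀ x ∈ L, σ x = x) → act m σ = 1
  compat : ∀ m σ x y, act (m + 1) σ (e (m + 1) x) = e (m + 1) y → act m σ (e m x) = e m y
  comm : ∀ m σ t x y, act m σ (e m x) = e m y → act m σ (e m (a t x)) = e m (a t y)
  es1 : ∀ (m ℓ : ℕ) (hℓ : ℓ.Prime) (hℓN : ¬ ℓ ∣ N) (hℓS : ℓ ∉ S), ℓ ≠ p →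
    ∀ A : ValuationSubring Qb, A.LiesOverPrime ℓ → ∀ τ : GQ, A.IsFrobeniusAt τ ℓ →
      ∀ x y z, act m τ (e m x) = e m y → act m τ (e m y) = e m z →
        e m (z - a (CuspForm.heckeAlgebra.T hℓ hℓN hℓS) y + ℓ • x) = 0
  es2 : ∀ (m q : ℕ), q.Prime → ¬ q ∣ N → q ≠ p →
    ∀ A : ValuationSubring Qb, A.LiesOverPrime q → ∀ σ ∈ A.inertiaSubgroupIn ℚ, act m σ = 1

theorem ESTower.toMatTower {N : ℕ} [NeZero N] {S : Set ℕ} {p : ℕ} (𝒯 : ESTower N S p) :
    Nonempty (MatTower N S p) := by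
  classical
  obtain ⟨X, a, a_inj, W, e, e_surj, e_ker, act, level, compat, comm, es1, es2⟩ := 𝒯
  let b : Module.Basis (Fin (Module.finrank ℤ X)) ℤ X := Module.finBasis ℤ X
  let Φ : Module.End ℤ X ≃ₐ[ℤ] Mat (Module.finrank ℤ X) ℤ := LinearMap.toMatrixAlgEquiv b
  let α : CuspForm.heckeAlgebra N 2 S →+* Module.End ℤ X :=
    (addMonoidEndRingEquivInt X).toRingHom.comp a
  have hα : ∀ t x, α t x = a t x := fun t x => rfl
  -- lifts
  have hlift : ∀ (m : ℕ) (g : GQ) (j : Fin (Module.finrank ℤ X)),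
      ∃ y : X, act m g (e m (b j)) = e m y := fun m g j => by
    obtain ⟨y, hy⟩ := e_surj m (act m g (e m (b j)))
    exact ⟨y, hy.symm⟩
  choose y hy using hlift
  let ρ : ℕ → GQ → Module.End ℤ X := fun m g => b.constr ℤ (y m g)
  have hρb : ∀ m g j, ρ m g (b j) = y m g j := fun m g j => b.constr_basis ℤ _ j
  have hρ : ∀ m g x, act m g (e m x) = e m (ρ m g x) := by
    intro m g x
    have h1 : (AddMonoidHom.comp (act m g) (e m)).toIntLinearMap =
        (e m).toIntLinearMap.comp (ρ m g) := b.ext fun j => by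
      show act m g (e m (b j)) = e m (ρ m g (b j))
      rw [hρb, hy]
    exact congrArg (fun f : X →ₗ[ℤ] W m => f x) h1
  have hcong : ∀ (m : ℕ) (F F' : Module.End ℤ X), (∀ j, e m (F (b j)) = e m (F' (b j))) →
      MCong ((p : ℤ) ^ m) (Φ F) (Φ F') := by
    intro m F F' h i j
    have h1 : e m (F (b j) - F' (b j)) = 0 := by rw [map_sub, h j, sub_self]
    obtain ⟨z, hz⟩ := (e_ker m _).1 h1
    refine ⟨b.repr z i, ?_⟩
    show (LinearMap.toMatrixAlgEquiv b F) i j - (LinearMap.toMatrixAlgEquiv b F') i j = _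
    rw [LinearMap.toMatrixAlgEquiv_apply, LinearMap.toMatrixAlgEquiv_apply, ← Finsupp.sub_apply,
      ← map_sub, hz, map_nsmul, Finsupp.smul_apply, nsmul_eq_mul]
    push_cast
    rfl
  refine ⟨{ d := Module.finrank ℤ X
            a := (Φ : Module.End ℤ X →+* Mat (Module.finrank ℤ X) ℤ).comp α
            a_inj := ?_
            r := fun m g => Φ (ρ m g)
            r_one := ?_, r_mul := ?_, r_succ := ?_, level := ?_, comm := ?_, es1 := ?_,
            es2 := ?_ }⟩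
  · intro s t h
    exact a_inj ((addMonoidEndRingEquivInt X).injective (Φ.injective h))
  · intro m
    rw [← map_one Φ]
    refine hcong m _ _ fun j => ?_
    rw [← hρ, map_one]
    rfl
  · intro m g h
    rw [← map_mul Φ]
    refine hcong m _ _ fun j => ?_
    rw [← hρ, map_mul, Module.End.mul_apply, ← hρ, ← hρ]
    rfl
  · intro m g
    refine hcong m _ _ fun j => ?_
    rw [← hρ m g]
    exact (compat m g _ _ (hρ (m + 1) g (b j))).symm
  · intro m
    obtain ⟨L, hL, h⟩ := level m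
    refine ⟨L, hL, fun σ hσ => ?_⟩
    rw [← map_one Φ]
    refine hcong m _ _ fun j => ?_
    rw [← hρ, h σ hσ]
    rfl
  · intro m g t
    show MCong _ (Φ (ρ m g) * Φ (α t)) (Φ (α t) * Φ (ρ m g))
    rw [← map_mul Φ, ← map_mul Φ]
    refine hcong m _ _ fun j => ?_
    rw [Module.End.mul_apply, Module.End.mul_apply, ← hρ, hα, hα]
    exact comm m g t _ _ (hρ m g (b j))
  · intro m ℓ hℓ hℓN hℓS hℓp A hA τ hτ
    show MCong _ (Φ (ρ m τ) * Φ (ρ m τ) - Φ (α _) * Φ (ρ m τ) + (ℓ : Mat _ ℤ)) 0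
    rw [← map_mul Φ, ← map_mul Φ, ← map_sub Φ, ← map_natCast Φ, ← map_add Φ, ← map_zero Φ]
    refine hcong m _ _ fun j => ?_
    have := es1 m ℓ hℓ hℓN hℓS hℓp A hA τ hτ (b j) (ρ m τ (b j)) (ρ m τ (ρ m τ (b j)))
      (hρ m τ _) (hρ m τ _)
    rw [LinearMap.zero_apply, map_zero, ← this]
    congr 1
  · intro m q hq hqN hqp A hA σ hσ
    rw [← map_one Φ]
    refine hcong m _ _ fun j => ?_
    rw [← hρ, es2 m q hq hqN hqp A hA σ hσ]
    rfl

theorem esInterface_of_matTower {N : ℕ} [NeZero N] {S : Set ℕ} {p : ℕ} (hp : p.Prime)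
    (hpS : p ∈ S) (hNS : ∀ q : ℕ, q.Prime → q ∣ N → q ∈ S) (𝒯 : MatTower N S p) :
    Fermat.Agent.S31.ESInterface N S p := by
  classical
  obtain ⟨d, a, a_inj, r, r_one, r_mul, r_succ, level, comm, es1, es2⟩ := 𝒯
  -- saturation
  let κ : CuspForm.heckeAlgebra N 2 S →+* Module.End ℤ (Fin d → ℤ) :=
    ((Matrix.toLinAlgEquiv' : Mat d ℤ ≃ₐ[ℤ] Module.End ℤ (Fin d → ℤ)) : Mat d ℤ →+* _).comp a
  have hκ : Function.Injective κ := fun s t h =>
    a_inj ((Matrix.toLinAlgEquiv' : Mat d ℤ ≃ₐ[ℤ] Module.End ℤ (Fin d → ℤ)).injective h)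
  have hκa : ∀ x v, κ x v = (a x).mulVec v := fun x v => rfl
  obtain ⟨c, hc⟩ := Fermat.Agent.S31.exists_saturation κ hκ p hp
  intro n
  set m := n + c with hm
  haveI : NeZero (p ^ m) := ⟨pow_ne_zero _ hp.ne_zero⟩
  let cm : Mat d ℤ →+* Mat d (ZMod (p ^ m)) := (Int.castRingHom (ZMod (p ^ m))).mapMatrix
  let Ψ : Mat d (ZMod (p ^ m)) →+* AddMonoid.End (Fin d → ZMod (p ^ m)) :=
    (Module.toAddMonoidEnd (Module.End (ZMod (p ^ m)) (Fin d → ZMod (p ^ m)))
      (Fin d → ZMod (p ^ m))).comp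
    ((Matrix.toLinAlgEquiv' : Mat d (ZMod (p ^ m)) ≃ₐ[ZMod (p ^ m)] _) : Mat d (ZMod (p ^ m)) →+* _)
  have hΨ : ∀ A w, Ψ A w = A.mulVec w := fun A w => rfl
  let Θ : Mat d ℤ →+* AddMonoid.End (Fin d → ZMod (p ^ m)) := Ψ.comp cm
  have hcm : ∀ A B : Mat d ℤ, MCong ((p : ℤ) ^ m) A B → cm A = cm B := by
    intro A B h
    ext i j
    show ((A i j : ℤ) : ZMod (p ^ m)) = ((B i j : ℤ) : ZMod (p ^ m))
    rw [eq_comm, ZMod.intCast_eq_intCast_iff_dvd_sub]
    push_cast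
    exact h i j
  have hΘ : ∀ A B : Mat d ℤ, MCong ((p : ℤ) ^ m) A B → Θ A = Θ B := fun A B h => by
    show Ψ (cm A) = Ψ (cm B)
    rw [hcm A B h]
  let act : GQ →* AddMonoid.End (Fin d → ZMod (p ^ m)) :=
    { toFun := fun g => Θ (r m g)
      map_one' := by rw [hΘ _ _ (r_one m), map_one]
      map_mul' := fun g h => by rw [hΘ _ _ (r_mul m g h), map_mul] }
  have hact : ∀ g, act g = Θ (r m g) := fun g => rfl
  refine ⟨m, Fin d → ZMod (p ^ m), inferInstance, act, Θ.comp a, Nat.le_add_right n c,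
    inferInstance, ?_, ?_, ?_, ?_, ?_, ?_⟩
  · intro w
    funext i
    rw [Pi.smul_apply, nsmul_eq_mul, ZMod.natCast_self, zero_mul]
    rfl
  · obtain ⟨L, hL, h⟩ := level m
    refine ⟨L, hL, fun σ hσ => ?_⟩
    rw [hact, hΘ _ _ (h σ hσ), map_one]
  · intro x g
    show Θ (a x) * Θ (r m g) = Θ (r m g) * Θ (a x)
    rw [← map_mul, ← map_mul, hΘ _ _ (comm m g x)]
  · intro ℓ hℓ hℓN hℓS A hA τ hτ
    have hℓp : ℓ ≠ p := fun h => hℓS (h ▸ hpS)
    show Θ (r m τ) * Θ (r m τ) - Θ (a _) * Θ (r m τ) + (ℓ : AddMonoid.End _) = 0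
    rw [← map_mul, ← map_mul, ← map_sub, ← map_natCast Θ, ← map_add,
      hΘ _ _ (es1 m ℓ hℓ hℓN hℓS hℓp A hA τ hτ), map_zero]
  · intro q hq hqN hqp A hA σ hσ
    rw [hact, hΘ _ _ (es2 m q hq hqN hqp A hA σ hσ), map_one]
  · intro x hx
    apply hc n x
    -- all the entries of `a x` are divisible by `p ^ m`
    have hdiv : ∀ i j, ((p ^ m : ℕ) : ℤ) ∣ a x i j := by
      intro i j
      have h1 : Ψ (cm (a x)) (Pi.single j 1) = 0 := by
        have : Ψ (cm (a x)) = 0 := hx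
        rw [this]; rfl
      rw [hΨ, Matrix.mulVec_single_one] at h1
      have h2 := congrFun h1 i
      have h3 : ((a x i j : ℤ) : ZMod (p ^ m)) = 0 := h2
      exact (ZMod.intCast_zmod_eq_zero_iff_dvd _ _).1 h3
    choose q hq using hdiv
    intro v
    refine ⟨(Matrix.of q).mulVec v, ?_⟩
    rw [hκa]
    funext i
    rw [Pi.smul_apply, Matrix.mulVec, Matrix.mulVec, dotProduct, dotProduct, Finset.smul_sum]
    refine Finset.sum_congr rfl fun j _ => ?_
    rw [hq i j, Matrix.of_apply, nsmul_eq_mul, mul_assoc]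

end Fermat.Agent.S30
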